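/-
GATE-C / C3-UNRAM (helper26).  Successive approximation for the "norm" `∏ σ, σ • x` of a finite
group acting on a `π`-adically complete domain, `π` fixed by the group:
if the norm is surjective on fixed units modulo `π` and the trace is surjective on fixed elements
modulo `π`, then the norm is surjective on fixed units.
Mathlib only.
-/
import Mathlib

set_option autoImplicit false

namespace Fermat.Agent.GC.Local.Unram

section Approx

variable {B G : Type*} [CommRing B] [Group G] [Fintype G] [MulSemiringAction G B]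

/-- the group norm -/
def gnorm (G : Type*) [Group G] [Fintype G] {B : Type*} [CommRing B] [MulSemiringAction G B]
    (x : B) : B := ∏ σ : G, σ • x

/-- the group trace -/
def gtrace (G : Type*) [Group G] [Fintype G] {B : Type*} [CommRing B] [MulSemiringAction G B]
    (x : B) : B := ∑ σ : G, σ • x

theorem smul_gnorm (τ : G) (x : B) : τ • gnorm G x = gnorm G x := by
  unfold gnorm
  rw [Finset.smul_prod']
  simp_rw [← mul_smul]
  exact Fintype.prod_equiv (Equiv.mulLeft τ) _ _ (fun σ => rfl)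

theorem smul_gtrace (τ : G) (x : B) : τ • gtrace G x = gtrace G x := by
  unfold gtrace
  rw [Finset.smul_sum]
  simp_rw [← mul_smul]
  exact Fintype.sum_equiv (Equiv.mulLeft τ) _ _ (fun σ => rfl)

theorem gnorm_mul (x y : B) : gnorm G (x * y) = gnorm G x * gnorm G y := by
  unfold gnorm
  simp_rw [smul_mul']
  exact Finset.prod_mul_distrib

theorem gnorm_one : gnorm G (1 : B) = 1 := by
  unfold gnorm
  simp

theorem isUnit_gnorm {x : B} (hx : IsUnit x) : IsUnit (gnorm G x) := by
  unfold gnorm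
  have : ∀ σ ∈ (Finset.univ : Finset G), IsUnit (σ • x) := fun σ _ =>
    hx.map (MulSemiringAction.toRingHom G B σ)
  exact (IsUnit.prod_univ_iff).mpr fun σ => this σ (Finset.mem_univ σ)

/-- congruences are preserved by the group norm, for a modulus fixed by the group -/
theorem dvd_gnorm_sub_gnorm {c x y : B} (hc : ∀ σ : G, σ • c = c) (h : c ∣ x - y) :
    c ∣ gnorm G x - gnorm G y := by
  rw [← Ideal.mem_span_singleton, ← Ideal.Quotient.eq] at h ⊢
  unfold gnorm
  rw [map_prod, map_prod]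
  refine Finset.prod_congr rfl fun σ _ => ?_
  rw [Ideal.Quotient.eq, Ideal.mem_span_singleton]
  rw [Ideal.Quotient.eq, Ideal.mem_span_singleton] at h
  obtain ⟨d, hd⟩ := h
  refine ⟨σ • d, ?_⟩
  rw [← smul_sub, hd, smul_mul', hc]

/-- first order expansion of a product `∏ (1 + c * x i)` -/
theorem sq_dvd_prod_one_add_sub {ι : Type*} (s : Finset ι) (c : B) (x : ι → B) :
    c ^ 2 ∣ (∏ i ∈ s, (1 + c * x i)) - (1 + c * ∑ i ∈ s, x i) := by
  classical
  induction s using Finset.induction_on with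
  | empty => simp
  | insert a s ha ih =>
    obtain ⟨d, hd⟩ := ih
    rw [Finset.prod_insert ha, Finset.sum_insert ha]
    have : (∏ i ∈ s, (1 + c * x i)) = (1 + c * ∑ i ∈ s, x i) + c ^ 2 * d := by
      rw [← hd]; ring
    rw [this]
    refine ⟨d + x a * (∑ i ∈ s, x i) + c * x a * d, ?_⟩
    ring

theorem sq_dvd_gnorm_one_add_sub (c b : B) (hc : ∀ σ : G, σ • c = c) :
    c ^ 2 ∣ gnorm G (1 + c * b) - (1 + c * gtrace G b) := by
  have := sq_dvd_prod_one_add_sub (Finset.univ : Finset G) c (fun σ => σ • b)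
  unfold gnorm gtrace
  convert this using 3
  rw [smul_add, smul_one, smul_mul', hc]

end Approx

section Main

variable {B G : Type*} [CommRing B] [IsDomain B] [Group G] [Fintype G] [MulSemiringAction G B]

omit [IsDomain B] in
theorem isUnit_of_dvd_sub_of_mem_jacobson {π x y : B}
    (hjac : π ∈ Ideal.jacobson (⊥ : Ideal B)) (hx : IsUnit x) (h : π ∣ y - x) : IsUnit y := by
  obtain ⟨d, hd⟩ := h
  obtain ⟨x', hx'⟩ := hx.exists_right_inv
  have h1 : IsUnit (π * (d * x') + 1) := Ideal.mem_jacobson_bot.mp hjac (d * x')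
  have : y = x * (π * (d * x') + 1) := by
    have : y = x + π * d := by rw [← hd]; ring
    rw [this]
    calc x + π * d = x + π * d * (x * x') := by rw [hx', mul_one]
      _ = x * (π * (d * x') + 1) := by ring
  rw [this]
  exact hx.mul h1

/-- one step of the successive approximation -/
theorem approx_step {π : B} (hπ : ∀ σ : G, σ • π = π) (hπ0 : π ≠ 0)
    (hjac : π ∈ Ideal.jacobson (⊥ : Ideal B))
    (hT : ∀ a : B, (∀ σ : G, σ • a = a) → ∃ b : B, π ∣ gtrace G b - a)
    {u : B} (hufix : ∀ σ : G, σ • u = u) (k : ℕ) {w : B}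
    (hw : IsUnit w ∧ π ^ (k + 1) ∣ gnorm G w - u) :
    ∃ w' : B, IsUnit w' ∧ π ^ (k + 1) ∣ w' - w ∧ π ^ (k + 2) ∣ gnorm G w' - u := by
  obtain ⟨hwu, d, hd⟩ := hw
  have hn : IsUnit (gnorm G w) := isUnit_gnorm hwu
  obtain ⟨n', hn'⟩ := hn.exists_right_inv
  have hπk : π ^ (k + 1) ≠ 0 := pow_ne_zero _ hπ0
  have hπkfix : ∀ σ : G, σ • π ^ (k + 1) = π ^ (k + 1) := fun σ => by rw [smul_pow', hπ]
  have hdfix : ∀ σ : G, σ • d = d := by
    intro σ
    apply mul_left_cancel₀ hπk
    have := congrArg (fun z => σ • z) hd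
    simp only [smul_sub, smul_gnorm, hufix, smul_mul', hπkfix] at this
    rw [← this, hd]
  have hn'fix : ∀ σ : G, σ • n' = n' := by
    intro σ
    have h1 : gnorm G w * (σ • n') = 1 := by
      have := congrArg (fun z => σ • z) hn'
      simpa only [smul_mul', smul_gnorm, smul_one] using this
    calc σ • n' = (n' * gnorm G w) * (σ • n') := by rw [mul_comm n', hn', one_mul]
      _ = n' * (gnorm G w * (σ • n')) := by ring
      _ = n' := by rw [h1, mul_one]
  have hafix : ∀ σ : G, σ • (-d * n') = -d * n' := by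
    intro σ
    rw [smul_mul', smul_neg, hdfix, hn'fix]
  obtain ⟨b, t, ht⟩ := hT (-d * n') hafix
  obtain ⟨r, hr⟩ := sq_dvd_gnorm_one_add_sub (G := G) (π ^ (k + 1)) b hπkfix
  have hunit : IsUnit (1 + π ^ (k + 1) * b) := by
    have := Ideal.mem_jacobson_bot.mp hjac (π ^ k * b)
    convert this using 1
    ring
  refine ⟨w * (1 + π ^ (k + 1) * b), hwu.mul hunit, ⟨w * b, by ring⟩, ?_⟩
  rw [gnorm_mul]
  have e1 : gnorm G (1 + π ^ (k + 1) * b) =
      1 + π ^ (k + 1) * gtrace G b + (π ^ (k + 1)) ^ 2 * r := by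
    rw [← hr]; ring
  have e2 : gtrace G b = -d * n' + π * t := by rw [← ht]; ring
  have e3 : gnorm G w = u + π ^ (k + 1) * d := by rw [← hd]; ring
  refine ⟨gnorm G w * t + gnorm G w * π ^ k * r, ?_⟩
  rw [e1, e2]
  have : gnorm G w * (1 + π ^ (k + 1) * (-d * n' + π * t) + (π ^ (k + 1)) ^ 2 * r) - u =
      (gnorm G w - u) - π ^ (k + 1) * d * (gnorm G w * n') +
        π ^ (k + 2) * (gnorm G w * t + gnorm G w * π ^ k * r) := by ring
  rw [this, hn', hd]
  ring

/-- **Successive approximation.** -/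
theorem exists_gnorm_eq_of_complete {π : B} (hπ : ∀ σ : G, σ • π = π) (hπ0 : π ≠ 0)
    [IsAdicComplete (Ideal.span {π}) B]
    (hN : ∀ u : B, IsUnit u → (∀ σ : G, σ • u = u) → ∃ w : B, IsUnit w ∧ π ∣ gnorm G w - u)
    (hT : ∀ a : B, (∀ σ : G, σ • a = a) → ∃ b : B, π ∣ gtrace G b - a)
    {u : B} (hu : IsUnit u) (hufix : ∀ σ : G, σ • u = u) :
    ∃ w : B, IsUnit w ∧ gnorm G w = u := by
  have hjac : π ∈ Ideal.jacobson (⊥ : Ideal B) :=
    IsAdicComplete.le_jacobson_bot (Ideal.span {π}) (Ideal.mem_span_singleton_self π)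
  obtain ⟨w₁, hw₁u, hw₁⟩ := hN u hu hufix
  choose! next hnext using fun (k : ℕ) (w : B) (hw : IsUnit w ∧ π ^ (k + 1) ∣ gnorm G w - u) =>
    approx_step hπ hπ0 hjac hT hufix k hw
  let f : ℕ → B := fun k => Nat.rec w₁ (fun k w => next k w) k
  have hf0 : f 0 = w₁ := rfl
  have hfs : ∀ k, f (k + 1) = next k (f k) := fun k => rfl
  have hP : ∀ k, IsUnit (f k) ∧ π ^ (k + 1) ∣ gnorm G (f k) - u := by
    intro k
    induction k with
    | zero =>
      rw [hf0]
      exact ⟨hw₁u, by simpa using hw₁⟩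
    | succ k ih =>
      have := hnext k (f k) ih
      rw [hfs]
      exact ⟨this.1, this.2.2⟩
  have hstep : ∀ k, π ^ (k + 1) ∣ f (k + 1) - f k := fun k => by
    rw [hfs]; exact (hnext k (f k) (hP k)).2.1
  have hcauchy : ∀ m n, m ≤ n → π ^ m ∣ f n - f m := by
    intro m n hmn
    induction n, hmn using Nat.le_induction with
    | base => simp
    | succ n hmn ih =>
      have h1 : π ^ m ∣ f (n + 1) - f n :=
        (pow_dvd_pow π (by omega : m ≤ n + 1)).trans (hstep n)
      have : f (n + 1) - f m = (f (n + 1) - f n) + (f n - f m) := by ring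
      rw [this]
      exact dvd_add h1 ih
  -- the limit
  obtain ⟨w, hw⟩ := IsPrecomplete.prec' (I := Ideal.span {π}) (M := B) f (by
    intro m n hmn
    rw [SModEq.sub_mem, smul_eq_mul, Ideal.mul_top, Ideal.span_singleton_pow,
      Ideal.mem_span_singleton]
    have := hcauchy m n hmn
    rwa [← dvd_neg, neg_sub] at this)
  have hw' : ∀ n, π ^ n ∣ w - f n := by
    intro n
    have := hw n
    rw [SModEq.sub_mem, smul_eq_mul, Ideal.mul_top, Ideal.span_singleton_pow,
      Ideal.mem_span_singleton] at this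
    rwa [← dvd_neg, neg_sub] at this
  have hwu : IsUnit w := by
    refine isUnit_of_dvd_sub_of_mem_jacobson hjac (hP 1).1 ?_
    exact (dvd_pow_self π one_ne_zero).trans (hw' 1)
  refine ⟨w, hwu, ?_⟩
  have hπn : ∀ n : ℕ, ∀ σ : G, σ • π ^ n = π ^ n := fun n σ => by rw [smul_pow', hπ]
  have hall : ∀ n, π ^ n ∣ gnorm G w - u := by
    intro n
    have h1 : π ^ n ∣ gnorm G w - gnorm G (f n) := dvd_gnorm_sub_gnorm (hπn n) (hw' n)
    have h2 : π ^ n ∣ gnorm G (f n) - u :=
      (pow_dvd_pow π (Nat.le_succ n)).trans (hP n).2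
    have : gnorm G w - u = (gnorm G w - gnorm G (f n)) + (gnorm G (f n) - u) := by ring
    rw [this]
    exact dvd_add h1 h2
  have := IsHausdorff.haus' (I := Ideal.span {π}) (M := B) (gnorm G w - u) (by
    intro n
    rw [SModEq.zero, smul_eq_mul, Ideal.mul_top, Ideal.span_singleton_pow,
      Ideal.mem_span_singleton]
    exact hall n)
  exact sub_eq_zero.mp this

end Main

end Fermat.Agent.GC.Local.Unram
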