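/-
GATE-C / C3-UNRAM (helper26).  Ring-level core: a finite group `G` acting on a local domain `B`
with invariants `A` (`IsGaloisGroup G A B`), `B` finite free over the local ring `A`,
UNRAMIFIED (`𝔪_A B = 𝔪_B`), finite residue field.  Then `G → Aut(κ_B/κ_A)` is bijective.
-/
import Mathlib
import Fermat.Agent.GC.Local.Unram.Approx

set_option autoImplicit false

open IsLocalRing
open scoped Pointwise

namespace Fermat.Agent.GC.Local.Unram

section RingLevel

variable {A B : Type*} (G : Type*) [CommRing A] [CommRing B] [Algebra A B] [Group G] [Finite G]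
  [MulSemiringAction G B] [IsGaloisGroup G A B]
  [IsDomain B] [IsLocalRing A] [IsLocalRing B] [FaithfulSMul A B]
  [Module.Finite A B] [Module.Free A B]
  [Finite (A ⧸ maximalIdeal A)]

omit [Finite G] [IsGaloisGroup G A B] [IsDomain B] [IsLocalRing A] [FaithfulSMul A B]
  [Module.Finite A B] [Module.Free A B] [Finite (A ⧸ maximalIdeal A)] [Algebra A B] [CommRing A] in
/-- Every automorphism fixes the unique maximal ideal. -/
theorem smul_maximalIdeal (σ : G) : σ • maximalIdeal B = maximalIdeal B := by
  ext x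
  rw [Ideal.mem_pointwise_smul_iff_inv_smul_mem, mem_maximalIdeal, mem_maximalIdeal,
    mem_nonunits_iff, mem_nonunits_iff]
  have : IsUnit (σ⁻¹ • x) ↔ IsUnit x := by
    constructor
    · intro h
      have := h.map (MulSemiringAction.toRingHom G B σ)
      simpa using this
    · intro h
      exact h.map (MulSemiringAction.toRingHom G B σ⁻¹)
  rw [this]

omit [Finite G] [IsGaloisGroup G A B] [IsDomain B] [IsLocalRing A] [FaithfulSMul A B]
  [Module.Finite A B] [Module.Free A B] [Finite (A ⧸ maximalIdeal A)] [Algebra A B] [CommRing A] in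
theorem stabilizer_maximalIdeal : MulAction.stabilizer G (maximalIdeal B) = ⊤ := by
  ext σ
  simp [MulAction.mem_stabilizer_iff, smul_maximalIdeal]

omit [Finite G] [MulSemiringAction G B] [IsGaloisGroup G A B] [IsDomain B] [IsLocalRing B] 
  [FaithfulSMul A B] [Finite (A ⧸ maximalIdeal A)] in
theorem finrank_quotient_of_map_eq {Q : Ideal B} [Q.LiesOver (maximalIdeal A)]
    (h : (maximalIdeal A).map (algebraMap A B) = Q) :
    Module.finrank (A ⧸ maximalIdeal A) (B ⧸ Q) = Module.finrank A B := by
  subst h
  exact IsLocalRing.finrank_quotient_map (R := A) (S := B)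

end RingLevel

section Bij

variable {A B : Type*} (G : Type*) [CommRing A] [CommRing B] [Algebra A B] [Group G] [Finite G]
  [MulSemiringAction G B] [IsGaloisGroup G A B]
  [IsDomain B] [IsLocalRing A] [IsLocalRing B] [FaithfulSMul A B]
  [Module.Finite A B] [Module.Free A B]
  [Finite (A ⧸ maximalIdeal A)] [(maximalIdeal B).LiesOver (maximalIdeal A)]

attribute [local instance] Ideal.Quotient.field

/-- UNRAMIFIED + finite residue field: the decomposition group (= everything) maps
bijectively onto the automorphism group of the residue extension. -/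
theorem stabilizerHom_bijective
    (hunr : (maximalIdeal A).map (algebraMap A B) = maximalIdeal B) :
    Function.Bijective
      (Ideal.Quotient.stabilizerHom (maximalIdeal B) (maximalIdeal A) G) := by
  have hsurj := Ideal.Quotient.stabilizerHom_surjective G (maximalIdeal A) (maximalIdeal B)
  have hfin : Module.Finite (A ⧸ maximalIdeal A) (B ⧸ maximalIdeal B) :=
    Module.Finite.of_restrictScalars_finite A _ _
  have : Finite (B ⧸ maximalIdeal B) := Module.finite_of_finite (A ⧸ maximalIdeal A)
  have hgal : IsGalois (A ⧸ maximalIdeal A) (B ⧸ maximalIdeal B) := inferInstance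
  have hcard : Nat.card ((B ⧸ maximalIdeal B) ≃ₐ[A ⧸ maximalIdeal A] (B ⧸ maximalIdeal B)) =
      Nat.card G := by
    rw [IsGalois.card_aut_eq_finrank, finrank_quotient_of_map_eq hunr,
      IsGaloisGroup.card_eq_finrank' G A B]
  refine ⟨?_, hsurj⟩
  have hle : Nat.card (MulAction.stabilizer G (maximalIdeal B)) ≤
      Nat.card ((B ⧸ maximalIdeal B) ≃ₐ[A ⧸ maximalIdeal A] (B ⧸ maximalIdeal B)) := by
    rw [hcard]
    exact Nat.card_le_card_of_injective _ Subtype.val_injective
  exact (Function.Surjective.bijective_of_nat_card_le hsurj hle).1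

end Bij

section Residue

variable {A B : Type*} (G : Type*) [CommRing A] [CommRing B] [Algebra A B] [Group G] [Fintype G]
  [MulSemiringAction G B] [IsGaloisGroup G A B]
  [IsDomain B] [IsLocalRing A] [IsLocalRing B] [FaithfulSMul A B]
  [Module.Finite A B] [Module.Free A B]
  [Finite (A ⧸ maximalIdeal A)] [(maximalIdeal B).LiesOver (maximalIdeal A)]

attribute [local instance] Ideal.Quotient.field

/-- the reduction homomorphism `G → Aut(κ_B/κ_A)` -/
noncomputable def resHom :
    G →* ((B ⧸ maximalIdeal B) ≃ₐ[A ⧸ maximalIdeal A] (B ⧸ maximalIdeal B)) :=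
  (Ideal.Quotient.stabilizerHom (maximalIdeal B) (maximalIdeal A) G).comp
    { toFun := fun σ => ⟨σ, by rw [stabilizer_maximalIdeal]; trivial⟩
      map_one' := rfl
      map_mul' := fun _ _ => rfl }

@[simp] theorem resHom_mk (σ : G) (b : B) :
    resHom (A := A) G σ (Ideal.Quotient.mk (maximalIdeal B) b) =
      Ideal.Quotient.mk (maximalIdeal B) (σ • b) := rfl

theorem resHom_bijective
    (hunr : (maximalIdeal A).map (algebraMap A B) = maximalIdeal B) :
    Function.Bijective (resHom (A := A) (B := B) G) := by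
  have h := stabilizerHom_bijective (A := A) (B := B) G hunr
  refine h.comp ⟨?_, ?_⟩
  · intro σ τ hστ
    exact congrArg Subtype.val hστ
  · rintro ⟨σ, hσ⟩
    exact ⟨σ, rfl⟩

theorem mk_gtrace_eq_trace
    (hunr : (maximalIdeal A).map (algebraMap A B) = maximalIdeal B) (b : B) :
    Ideal.Quotient.mk (maximalIdeal B) (gtrace G b) =
      algebraMap (A ⧸ maximalIdeal A) (B ⧸ maximalIdeal B)
        (Algebra.trace (A ⧸ maximalIdeal A) (B ⧸ maximalIdeal B)
          (Ideal.Quotient.mk (maximalIdeal B) b)) := by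
  have hfin : Module.Finite (A ⧸ maximalIdeal A) (B ⧸ maximalIdeal B) :=
    Module.Finite.of_restrictScalars_finite A _ _
  have : Finite (B ⧸ maximalIdeal B) := Module.finite_of_finite (A ⧸ maximalIdeal A)
  rw [trace_eq_sum_automorphisms]
  unfold gtrace
  rw [map_sum]
  rw [← Fintype.sum_bijective (resHom (A := A) (B := B) G) (resHom_bijective G hunr)
    (fun σ => Ideal.Quotient.mk (maximalIdeal B) (σ • b))
    (fun τ => τ (Ideal.Quotient.mk (maximalIdeal B) b))]
  intro σ
  rfl

theorem mk_gnorm_eq_norm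
    (hunr : (maximalIdeal A).map (algebraMap A B) = maximalIdeal B) (b : B) :
    Ideal.Quotient.mk (maximalIdeal B) (gnorm G b) =
      algebraMap (A ⧸ maximalIdeal A) (B ⧸ maximalIdeal B)
        (Algebra.norm (A ⧸ maximalIdeal A)
          (Ideal.Quotient.mk (maximalIdeal B) b)) := by
  have hfin : Module.Finite (A ⧸ maximalIdeal A) (B ⧸ maximalIdeal B) :=
    Module.Finite.of_restrictScalars_finite A _ _
  have : Finite (B ⧸ maximalIdeal B) := Module.finite_of_finite (A ⧸ maximalIdeal A)
  rw [Algebra.norm_eq_prod_automorphisms]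
  unfold gnorm
  rw [map_prod]
  rw [← Fintype.prod_bijective (resHom (A := A) (B := B) G) (resHom_bijective G hunr)
    (fun σ => Ideal.Quotient.mk (maximalIdeal B) (σ • b))
    (fun τ => τ (Ideal.Quotient.mk (maximalIdeal B) b))]
  intro σ
  rfl

end Residue

section NormSurj

variable {A B : Type*} (G : Type*) [CommRing A] [CommRing B] [Algebra A B] [Group G] [Fintype G]
  [MulSemiringAction G B] [IsGaloisGroup G A B]
  [IsDomain B] [IsLocalRing A] [IsLocalRing B] [FaithfulSMul A B]
  [Module.Finite A B] [Module.Free A B]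
  [Finite (A ⧸ maximalIdeal A)] [(maximalIdeal B).LiesOver (maximalIdeal A)]

attribute [local instance] Ideal.Quotient.field

omit [Fintype G] [MulSemiringAction G B] [IsGaloisGroup G A B] [IsDomain B] [FaithfulSMul A B]
  [Module.Finite A B] [Module.Free A B] [Finite (A ⧸ maximalIdeal A)] in
theorem algebraMap_mk_eq (a : A) :
    algebraMap (A ⧸ maximalIdeal A) (B ⧸ maximalIdeal B) (Ideal.Quotient.mk _ a) =
      Ideal.Quotient.mk _ (algebraMap A B a) := rfl

/-- **Norm surjectivity on units, ring level.**  `B` complete w.r.t. its maximal ideal `(π)`,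
`π` fixed by `G`, unramified over `A = B^G`, finite residue fields. -/
theorem exists_gnorm_eq
    (hunr : (maximalIdeal A).map (algebraMap A B) = maximalIdeal B)
    {π : B} (hπ : maximalIdeal B = Ideal.span {π}) (hπfix : ∀ σ : G, σ • π = π) (hπ0 : π ≠ 0)
    [IsAdicComplete (maximalIdeal B) B] {u : B} (hu : IsUnit u) (hufix : ∀ σ : G, σ • u = u) :
    ∃ w : B, IsUnit w ∧ gnorm G w = u := by
  have hfin : Module.Finite (A ⧸ maximalIdeal A) (B ⧸ maximalIdeal B) :=
    Module.Finite.of_restrictScalars_finite A _ _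
  have : Finite (B ⧸ maximalIdeal B) := Module.finite_of_finite (A ⧸ maximalIdeal A)
  have hcomp : IsAdicComplete (Ideal.span {π}) B := hπ ▸ (inferInstance : IsAdicComplete (maximalIdeal B) B)
  have hmem : ∀ x : B, π ∣ x ↔ Ideal.Quotient.mk (maximalIdeal B) x = 0 := by
    intro x
    rw [Ideal.Quotient.eq_zero_iff_mem, hπ, Ideal.mem_span_singleton]
  refine exists_gnorm_eq_of_complete (G := G) hπfix hπ0 ?_ ?_ hu hufix
  · -- norm mod π
    intro u hu hufix
    obtain ⟨u₀, rfl⟩ := Algebra.IsInvariant.isInvariant (A := A) (G := G) u hufix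
    obtain ⟨β, hβ⟩ := FiniteField.norm_surjective (A ⧸ maximalIdeal A) (B ⧸ maximalIdeal B)
      (Ideal.Quotient.mk _ u₀)
    obtain ⟨b, rfl⟩ := Ideal.Quotient.mk_surjective β
    have hb : IsUnit b := by
      by_contra hb
      have hb0 : Ideal.Quotient.mk (maximalIdeal B) b = 0 :=
        Ideal.Quotient.eq_zero_iff_mem.mpr ((mem_maximalIdeal b).mpr hb)
      rw [hb0, Algebra.norm_zero] at hβ
      have : Ideal.Quotient.mk (maximalIdeal B) (algebraMap A B u₀) = 0 := by
        rw [← algebraMap_mk_eq, ← hβ, map_zero]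
      rw [Ideal.Quotient.eq_zero_iff_mem, mem_maximalIdeal] at this
      exact this hu
    refine ⟨b, hb, ?_⟩
    rw [hmem, map_sub, mk_gnorm_eq_norm G hunr, hβ, algebraMap_mk_eq, sub_self]
  · -- trace mod π
    intro a hafix
    obtain ⟨a₀, rfl⟩ := Algebra.IsInvariant.isInvariant (A := A) (G := G) a hafix
    obtain ⟨β, hβ⟩ := Algebra.trace_surjective (A ⧸ maximalIdeal A) (B ⧸ maximalIdeal B)
      (Ideal.Quotient.mk _ a₀)
    obtain ⟨b, rfl⟩ := Ideal.Quotient.mk_surjective β
    refine ⟨b, ?_⟩
    rw [hmem, map_sub, mk_gtrace_eq_trace G hunr, hβ, algebraMap_mk_eq, sub_self]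

end NormSurj

end Fermat.Agent.GC.Local.Unram
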