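/-
GATE-C / C3-UNRAM (helper26).  Field-level statements: `E/F` finite Galois, `O` a Galois-stable
valuation subring of `E` which is a complete DVR with finite residue field, UNRAMIFIED
(some element of `F` is a uniformiser of `O`).
-/
import Mathlib
import Fermat.Agent.GC.Local.Unram.RingLevel

set_option autoImplicit false

open IsLocalRing

namespace Fermat.Agent.GC.Local.Unram

section Setup

variable {F E : Type*} [Field F] [Field E] [Algebra F E]

/-- The valuation ring of the bottom field. -/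
abbrev bot (O : ValuationSubring E) : ValuationSubring F := O.comap (algebraMap F E)

variable (O : ValuationSubring E)

/-- the inclusion `O ∩ F → O` -/
def botHom : bot (F := F) O →+* O where
  toFun x := ⟨algebraMap F E x, x.2⟩
  map_one' := by ext; simp
  map_mul' x y := by ext; simp
  map_zero' := by ext; simp
  map_add' x y := by ext; simp

@[reducible] def botAlgebra : Algebra (bot (F := F) O) O := (botHom O).toAlgebra

@[reducible] def botAlgebraTop : Algebra (bot (F := F) O) E :=
  ((algebraMap F E).comp (bot (F := F) O).subtype).toAlgebra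

attribute [local instance] botAlgebra botAlgebraTop

theorem botHom_coe (x : bot (F := F) O) : ((algebraMap (bot (F := F) O) O x : O) : E) =
    algebraMap F E x := rfl

instance : IsScalarTower (bot (F := F) O) F E := IsScalarTower.of_algebraMap_eq fun _ => rfl

instance : IsScalarTower (bot (F := F) O) O E := IsScalarTower.of_algebraMap_eq fun _ => rfl

instance : FaithfulSMul (bot (F := F) O) O := by
  rw [faithfulSMul_iff_algebraMap_injective]
  intro x y h
  have := congrArg (fun z : O => (z : E)) h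
  simp only [botHom_coe] at this
  exact Subtype.ext ((algebraMap F E).injective this)

end Setup

section Action

variable {F E : Type*} [Field F] [Field E] [Algebra F E] [FiniteDimensional F E] [IsGalois F E]
  (O : ValuationSubring E) (hO : ∀ (σ : E ≃ₐ[F] E) (x : E), x ∈ O → σ x ∈ O)

attribute [local instance] botAlgebra botAlgebraTop

/-- the Galois action on a Galois-stable valuation ring -/
@[reducible] def galAction : MulSemiringAction (E ≃ₐ[F] E) O where
  smul σ x := ⟨σ x, hO σ x x.2⟩
  one_smul _ := Subtype.ext rfl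
  mul_smul _ _ _ := Subtype.ext rfl
  smul_zero σ := Subtype.ext (map_zero σ)
  smul_add σ _ _ := Subtype.ext (map_add σ _ _)
  smul_one σ := Subtype.ext (map_one σ)
  smul_mul σ _ _ := Subtype.ext (map_mul σ _ _)

omit [FiniteDimensional F E] [IsGalois F E] in
theorem galAction_coe (σ : E ≃ₐ[F] E) (x : O) :
    letI := galAction O hO
    ((σ • x : O) : E) = σ x := rfl

theorem isGaloisGroup_bot :
    letI := galAction O hO
    IsGaloisGroup (E ≃ₐ[F] E) (bot (F := F) O) O := by
  let _ := galAction O hO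
  refine ⟨⟨?_⟩, ⟨?_⟩, ⟨?_⟩⟩
  · intro σ τ h
    ext y
    rcases O.mem_or_inv_mem y with hy | hy
    · exact congrArg (fun z : O => (z : E)) (h ⟨y, hy⟩)
    · have := congrArg (fun z : O => (z : E)) (h ⟨y⁻¹, hy⟩)
      simp only [galAction_coe, map_inv₀] at this
      exact inv_injective this
  · intro σ a x
    apply Subtype.ext
    show σ (algebraMap F E a * x) = algebraMap F E a * σ x
    rw [map_mul, AlgEquiv.commutes]
  · intro b hb
    have hfix : ∀ σ : E ≃ₐ[F] E, σ (b : E) = b := fun σ =>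
      congrArg (fun z : O => (z : E)) (hb σ)
    obtain ⟨a, ha⟩ := (IsGalois.mem_range_algebraMap_iff_fixed (F := F) (b : E)).mpr hfix
    refine ⟨⟨a, ?_⟩, Subtype.ext ha⟩
    show algebraMap F E a ∈ O
    rw [ha]; exact b.2

end Action

section BotDVR

variable {F E : Type*} [Field F] [Field E] [Algebra F E]
  (O : ValuationSubring E)

attribute [local instance] botAlgebra botAlgebraTop

/-- units of `O ∩ F` are detected in `O` -/
theorem isUnit_bot_iff (a : bot (F := F) O) :
    IsUnit a ↔ IsUnit (algebraMap (bot (F := F) O) O a) := by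
  constructor
  · intro h
    exact h.map _
  · intro h
    obtain ⟨b, hb⟩ := h.exists_right_inv
    have hb' : algebraMap F E a * (b : E) = 1 := by
      have := congrArg (fun z : O => (z : E)) hb
      simpa [botHom_coe] using this
    have ha0 : (a : F) ≠ 0 := by
      intro h0
      rw [h0, map_zero, zero_mul] at hb'
      exact zero_ne_one hb'
    have hbE : (b : E) = algebraMap F E (a : F)⁻¹ := by
      rw [map_inv₀]
      exact eq_inv_of_mul_eq_one_right hb'
    have hmem : (a : F)⁻¹ ∈ bot (F := F) O := by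
      show algebraMap F E (a : F)⁻¹ ∈ O
      rw [← hbE]; exact b.2
    refine IsUnit.of_mul_eq_one ⟨(a : F)⁻¹, hmem⟩ ?_
    apply Subtype.ext
    show (a : F) * (a : F)⁻¹ = 1
    exact mul_inv_cancel₀ ha0

variable [IsDiscreteValuationRing O]

/-- If some `c ∈ F` is a uniformiser of `O`, then it is a uniformiser of `O ∩ F`. -/
theorem irreducible_bot {c : F} (h : algebraMap F E c ∈ O)
    (hc : Irreducible (⟨algebraMap F E c, h⟩ : O)) :
    Irreducible (⟨c, h⟩ : bot (F := F) O) := by
  have hmap : algebraMap (bot (F := F) O) O ⟨c, h⟩ = ⟨algebraMap F E c, h⟩ := rfl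
  refine ⟨?_, ?_⟩
  · rw [isUnit_bot_iff, hmap]
    exact hc.not_isUnit
  · intro a b hab
    have : (⟨algebraMap F E c, h⟩ : O) =
        algebraMap (bot (F := F) O) O a * algebraMap (bot (F := F) O) O b := by
      rw [← hmap, hab, map_mul]
    rcases hc.isUnit_or_isUnit this with h1 | h1
    · exact Or.inl ((isUnit_bot_iff O a).mpr h1)
    · exact Or.inr ((isUnit_bot_iff O b).mpr h1)

theorem isDiscreteValuationRing_bot {c : F} (h : algebraMap F E c ∈ O)
    (hc : Irreducible (⟨algebraMap F E c, h⟩ : O)) :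
    IsDiscreteValuationRing (bot (F := F) O) := by
  apply IsDiscreteValuationRing.ofHasUnitMulPowIrreducibleFactorization
  refine ⟨⟨c, h⟩, irreducible_bot O h hc, ?_⟩
  intro x hx
  have hx' : algebraMap (bot (F := F) O) O x ≠ 0 := by
    intro h0
    exact hx ((FaithfulSMul.algebraMap_injective (bot (F := F) O) O) (by rw [h0, map_zero]))
  obtain ⟨n, hn⟩ := IsDiscreteValuationRing.associated_pow_irreducible hx' hc
  refine ⟨n, ?_⟩
  obtain ⟨u, hu⟩ := hn.symm
  -- `π^n * u = x` in `O`
  have hc0 : c ≠ 0 := by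
    rintro rfl
    apply hc.ne_zero
    apply Subtype.ext
    simp
  have huE : ((u : O) : E) = algebraMap F E ((x : F) / c ^ n) := by
    have := congrArg (fun z : O => (z : E)) hu
    simp only [MulMemClass.coe_mul, SubmonoidClass.coe_pow, botHom_coe] at this
    rw [map_div₀, map_pow, eq_div_iff (pow_ne_zero _ ((map_ne_zero _).mpr hc0)), mul_comm]
    exact this
  have hmem : (x : F) / c ^ n ∈ bot (F := F) O := by
    show algebraMap F E ((x : F) / c ^ n) ∈ O
    rw [← huE]; exact (u : O).2
  have hunit : IsUnit (⟨(x : F) / c ^ n, hmem⟩ : bot (F := F) O) := by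
    rw [isUnit_bot_iff]
    have : algebraMap (bot (F := F) O) O ⟨(x : F) / c ^ n, hmem⟩ = (u : O) :=
      Subtype.ext huE.symm
    rw [this]
    exact u.isUnit
  refine ⟨hunit.unit, ?_⟩
  apply Subtype.ext
  show c ^ n * ((x : F) / c ^ n) = x
  field_simp

end BotDVR

section Core

variable {F E : Type*} [Field F] [Field E] [Algebra F E] [FiniteDimensional F E] [IsGalois F E]
  (O : ValuationSubring E) [IsDiscreteValuationRing O] [Finite (IsLocalRing.ResidueField O)]
  [IsAdicComplete (IsLocalRing.maximalIdeal O) O]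
  (hO : ∀ (σ : E ≃ₐ[F] E) (x : E), x ∈ O → σ x ∈ O)

attribute [local instance] botAlgebra botAlgebraTop

omit [FiniteDimensional F E] [IsGalois F E] [IsDiscreteValuationRing O]
  [Finite (IsLocalRing.ResidueField O)] [IsAdicComplete (IsLocalRing.maximalIdeal O) O] in
theorem liesOver_bot : (maximalIdeal O).LiesOver (maximalIdeal (bot (F := F) O)) := by
  constructor
  ext x
  rw [Ideal.under_def, Ideal.mem_comap, mem_maximalIdeal, mem_maximalIdeal, mem_nonunits_iff,
    mem_nonunits_iff, isUnit_bot_iff]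

theorem map_maximalIdeal_bot {c : F} (h : algebraMap F E c ∈ O)
    (hc : Irreducible (⟨algebraMap F E c, h⟩ : O)) :
    (maximalIdeal (bot (F := F) O)).map (algebraMap (bot (F := F) O) O) = maximalIdeal O := by
  have hdvr : IsDiscreteValuationRing (bot (F := F) O) := isDiscreteValuationRing_bot O h hc
  rw [(irreducible_bot O h hc).maximalIdeal_eq, hc.maximalIdeal_eq, Ideal.map_span,
    Set.image_singleton]
  rfl

end Core

section CoreThm

variable {F E : Type*} [Field F] [Field E] [Algebra F E] [FiniteDimensional F E] [IsGalois F E]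
  (O : ValuationSubring E) [IsDiscreteValuationRing O] [Finite (IsLocalRing.ResidueField O)]
  [IsAdicComplete (IsLocalRing.maximalIdeal O) O]
  (hO : ∀ (σ : E ≃ₐ[F] E) (x : E), x ∈ O → σ x ∈ O)

attribute [local instance] botAlgebra botAlgebraTop
attribute [local instance] Ideal.Quotient.field

include hO in
/-- All the ring-level consequences, transported to `O` in elementary form. -/
theorem unram_core {c : F} (h : algebraMap F E c ∈ O)
    (hc : Irreducible (⟨algebraMap F E c, h⟩ : O)) :
    (∃ φ : E ≃ₐ[F] E, (∀ σ : E ≃ₐ[F] E, σ ∈ Subgroup.zpowers φ) ∧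
      ∀ x : E, x ∈ O → φ x - x ^ Nat.card (IsLocalRing.ResidueField (bot (F := F) O)) ∈
        O.nonunits) ∧
    (∀ σ : E ≃ₐ[F] E, (∀ x : E, x ∈ O → σ x - x ∈ O.nonunits) → σ = 1) ∧
    (Nat.card (IsLocalRing.ResidueField O) =
      Nat.card (IsLocalRing.ResidueField (bot (F := F) O)) ^ Module.finrank F E) ∧
    (∀ u : E, u ∈ O → u⁻¹ ∈ O → (∀ σ : E ≃ₐ[F] E, σ u = u) →
      ∃ w : E, w ∈ O ∧ w⁻¹ ∈ O ∧ ∏ σ : E ≃ₐ[F] E, σ w = u) := by
  classical
  let _ := galAction O hO
  have hGG : IsGaloisGroup (E ≃ₐ[F] E) (bot (F := F) O) O := isGaloisGroup_bot O hO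
  have hdvr : IsDiscreteValuationRing (bot (F := F) O) := isDiscreteValuationRing_bot O h hc
  have hint : Algebra.IsIntegral (bot (F := F) O) O :=
    Algebra.IsInvariant.isIntegral (bot (F := F) O) O (E ≃ₐ[F] E)
  have hic : IsIntegralClosure O (bot (F := F) O) E := inferInstance
  have hfinite : Module.Finite (bot (F := F) O) O :=
    IsIntegralClosure.finite (bot (F := F) O) F E O
  have hfree : Module.Free (bot (F := F) O) O := inferInstance
  have hlies : (maximalIdeal O).LiesOver (maximalIdeal (bot (F := F) O)) := liesOver_bot O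
  have hfinO : Finite (O ⧸ maximalIdeal O) := ‹Finite (IsLocalRing.ResidueField O)›
  have hresfin : Finite (bot (F := F) O ⧸ maximalIdeal (bot (F := F) O)) :=
    Finite.of_injective _ (FaithfulSMul.algebraMap_injective
      (bot (F := F) O ⧸ maximalIdeal (bot (F := F) O)) (O ⧸ maximalIdeal O))
  have hunr := map_maximalIdeal_bot O h hc
  have hbij := resHom_bijective (A := bot (F := F) O) (B := O) (E ≃ₐ[F] E) hunr
  have hfinB : Module.Finite (bot (F := F) O ⧸ maximalIdeal (bot (F := F) O))
      (O ⧸ maximalIdeal O) := Module.Finite.of_restrictScalars_finite (bot (F := F) O) _ _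
  let _ := Fintype.ofFinite (bot (F := F) O ⧸ maximalIdeal (bot (F := F) O))
  let _ := Fintype.ofFinite (O ⧸ maximalIdeal O)
  have hmemnon : ∀ (y : O), Ideal.Quotient.mk (maximalIdeal O) y = 0 → (y : E) ∈ O.nonunits := by
    intro y hy
    rw [ValuationSubring.mem_nonunits_iff_exists_mem_maximalIdeal]
    exact ⟨y.2, Ideal.Quotient.eq_zero_iff_mem.mp hy⟩
  have hnonmem : ∀ (y : O), (y : E) ∈ O.nonunits → Ideal.Quotient.mk (maximalIdeal O) y = 0 := by
    intro y hy
    rw [ValuationSubring.mem_nonunits_iff_exists_mem_maximalIdeal] at hy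
    obtain ⟨_, hy⟩ := hy
    exact Ideal.Quotient.eq_zero_iff_mem.mpr hy
  refine ⟨?_, ?_, ?_, ?_⟩
  · -- Frobenius
    obtain ⟨φ, hφ⟩ := hbij.2 (FiniteField.frobeniusAlgEquivOfAlgebraic
      (bot (F := F) O ⧸ maximalIdeal (bot (F := F) O)) (O ⧸ maximalIdeal O))
    refine ⟨φ, ?_, ?_⟩
    · intro σ
      obtain ⟨n, hn⟩ := (FiniteField.bijective_frobeniusAlgEquivOfAlgebraic_pow
        (bot (F := F) O ⧸ maximalIdeal (bot (F := F) O)) (O ⧸ maximalIdeal O)).2
        (resHom (A := bot (F := F) O) (B := O) (E ≃ₐ[F] E) σ)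
      refine ⟨(n.1 : ℤ), ?_⟩
      apply hbij.1
      show resHom (A := bot (F := F) O) (B := O) (E ≃ₐ[F] E) (φ ^ (n.1 : ℤ)) = _
      rw [zpow_natCast, map_pow, hφ]
      exact hn
    · intro x hx
      have key : Ideal.Quotient.mk (maximalIdeal O)
          (φ • (⟨x, hx⟩ : O) - (⟨x, hx⟩ : O) ^
            Nat.card (IsLocalRing.ResidueField (bot (F := F) O))) = 0 := by
        rw [map_sub, map_pow, ← resHom_mk (A := bot (F := F) O), hφ,
          FiniteField.coe_frobeniusAlgEquivOfAlgebraic, sub_eq_zero]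
        show _ ^ _ = _ ^ Nat.card (bot (F := F) O ⧸ maximalIdeal (bot (F := F) O))
        rw [Nat.card_eq_fintype_card]
      exact hmemnon _ key
  · -- trivial inertia
    intro σ hσ
    apply hbij.1
    rw [map_one]
    ext β
    obtain ⟨b, rfl⟩ := Ideal.Quotient.mk_surjective β
    rw [resHom_mk, AlgEquiv.one_apply, ← sub_eq_zero, ← map_sub]
    exact hnonmem (σ • b - b) (hσ (b : E) b.2)
  · -- cardinality of residue fields
    show Nat.card (O ⧸ maximalIdeal O) =
      Nat.card (bot (F := F) O ⧸ maximalIdeal (bot (F := F) O)) ^ Module.finrank F E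
    rw [Nat.card_eq_fintype_card, Nat.card_eq_fintype_card,
      Module.card_eq_pow_finrank (K := bot (F := F) O ⧸ maximalIdeal (bot (F := F) O))
        (V := O ⧸ maximalIdeal O),
      finrank_quotient_of_map_eq hunr,
      ← IsGaloisGroup.card_eq_finrank' (E ≃ₐ[F] E) (bot (F := F) O) O,
      IsGalois.card_aut_eq_finrank]
  · -- norm surjectivity
    intro u hu hu' hufix
    rcases eq_or_ne u 0 with rfl | hu0
    · exact ⟨0, O.zero_mem, by simp, by simp⟩
    have huU : IsUnit (⟨u, hu⟩ : O) := by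
      refine IsUnit.of_mul_eq_one ⟨u⁻¹, hu'⟩ ?_
      apply Subtype.ext
      show u * u⁻¹ = 1
      exact mul_inv_cancel₀ hu0
    have hfix' : ∀ σ : E ≃ₐ[F] E, σ • (⟨u, hu⟩ : O) = ⟨u, hu⟩ := fun σ => Subtype.ext (hufix σ)
    have hπfix : ∀ σ : E ≃ₐ[F] E, σ • (⟨algebraMap F E c, h⟩ : O) = ⟨algebraMap F E c, h⟩ :=
      fun σ => Subtype.ext (σ.commutes c)
    obtain ⟨w, hwU, hw⟩ := exists_gnorm_eq (A := bot (F := F) O) (B := O) (E ≃ₐ[F] E) hunr
      hc.maximalIdeal_eq hπfix hc.ne_zero huU hfix'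
    obtain ⟨w', hw'⟩ := hwU.exists_right_inv
    have hw0 : (w : E) ≠ 0 := by
      intro h0
      have := congrArg (fun z : O => (z : E)) hw'
      simp only [MulMemClass.coe_mul, h0, zero_mul, OneMemClass.coe_one] at this
      exact zero_ne_one this
    have hwinv : (w : E)⁻¹ = w' := by
      have := congrArg (fun z : O => (z : E)) hw'
      simp only [MulMemClass.coe_mul, OneMemClass.coe_one] at this
      exact (eq_inv_of_mul_eq_one_right this).symm
    refine ⟨w, w.2, hwinv ▸ w'.2, ?_⟩
    have := congrArg (fun z : O => (z : E)) hw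
    simp only [gnorm] at this
    rw [← this]
    rw [← ValuationSubring.coe_subtype, map_prod]
    rfl

end CoreThm

section Final

variable {F E : Type*} [Field F] [Field E] [Algebra F E] [FiniteDimensional F E] [IsGalois F E]
  (O : ValuationSubring E) [IsDiscreteValuationRing O] [Finite (IsLocalRing.ResidueField O)]
  [IsAdicComplete (IsLocalRing.maximalIdeal O) O]
  (hO : ∀ (σ : E ≃ₐ[F] E) (x : E), x ∈ O → σ x ∈ O)

omit [FiniteDimensional F E] [IsGalois F E] [Finite (IsLocalRing.ResidueField O)]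
  [IsAdicComplete (IsLocalRing.maximalIdeal O) O] [Field F] [Algebra F E] in
/-- every nonzero element of `E` is a power of the uniformiser times a unit of `O` -/
theorem exists_zpow_mul_unit {π : E} (h : π ∈ O) (hc : Irreducible (⟨π, h⟩ : O))
    {y : E} (hy : y ≠ 0) :
    ∃ (j : ℤ) (v : E), v ≠ 0 ∧ v ∈ O ∧ v⁻¹ ∈ O ∧ y = π ^ j * v := by
  have key : ∀ z : E, z ≠ 0 → z ∈ O →
      ∃ (m : ℕ) (v : E), v ≠ 0 ∧ v ∈ O ∧ v⁻¹ ∈ O ∧ z = π ^ m * v := by
    intro z hz hzO
    have hz' : (⟨z, hzO⟩ : O) ≠ 0 := fun h0 => hz (congrArg (fun t : O => (t : E)) h0)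
    obtain ⟨m, u, hu⟩ := IsDiscreteValuationRing.eq_unit_mul_pow_irreducible hz' hc
    have hu1 : ((u : O) : E) * ((u⁻¹ : Oˣ) : O) = 1 := by
      have h1 : ((u : O) * ((u⁻¹ : Oˣ) : O) : O) = 1 := u.mul_inv
      have := congrArg (fun t : O => (t : E)) h1
      simpa only [MulMemClass.coe_mul, OneMemClass.coe_one] using this
    have hu0 : ((u : O) : E) ≠ 0 := left_ne_zero_of_mul_eq_one hu1
    refine ⟨m, (u : O), hu0, (u : O).2, ?_, ?_⟩
    · have : ((u : O) : E)⁻¹ = ((u⁻¹ : Oˣ) : O) := (eq_inv_of_mul_eq_one_right hu1).symm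
      rw [this]; exact ((u⁻¹ : Oˣ) : O).2
    · have := congrArg (fun t : O => (t : E)) hu
      simp only [MulMemClass.coe_mul, SubmonoidClass.coe_pow] at this
      rw [this, mul_comm]
  rcases O.mem_or_inv_mem y with hyO | hyO
  · obtain ⟨m, v, hv0, hv, hv', e⟩ := key y hy hyO
    exact ⟨m, v, hv0, hv, hv', by rw [zpow_natCast]; exact e⟩
  · obtain ⟨m, v, hv0, hv, hv', e⟩ := key y⁻¹ (inv_ne_zero hy) hyO
    refine ⟨-(m : ℤ), v⁻¹, inv_ne_zero hv0, hv', by rwa [inv_inv], ?_⟩
    rw [zpow_neg, zpow_natCast, ← mul_inv, ← e, inv_inv]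

omit [FiniteDimensional F E] [IsGalois F E] [Finite (IsLocalRing.ResidueField O)]
  [IsAdicComplete (IsLocalRing.maximalIdeal O) O] [Field F] [Algebra F E] in
/-- a power of the uniformiser which is a unit of `O` is the zeroth power -/
theorem zpow_eq_zero_of_unit {π : E} (h : π ∈ O) (hc : Irreducible (⟨π, h⟩ : O))
    {d : ℤ} (h1 : π ^ d ∈ O) (h2 : (π ^ d)⁻¹ ∈ O) : d = 0 := by
  have hπ0 : π ≠ 0 := fun h0 => hc.ne_zero (Subtype.ext h0)
  have key : ∀ m : ℕ, (π ^ m)⁻¹ ∈ O → m = 0 := by
    intro m hm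
    by_contra hm0
    have hunit : IsUnit ((⟨π, h⟩ : O) ^ m) := by
      refine IsUnit.of_mul_eq_one ⟨(π ^ m)⁻¹, hm⟩ ?_
      apply Subtype.ext
      show π ^ m * (π ^ m)⁻¹ = 1
      exact mul_inv_cancel₀ (pow_ne_zero _ hπ0)
    exact hc.not_isUnit ((isUnit_pow_iff hm0).mp hunit)
  rcases le_total 0 d with hd | hd
  · obtain ⟨m, rfl⟩ := Int.eq_ofNat_of_zero_le hd
    rw [zpow_natCast] at h2
    rw [key m h2]; rfl
  · obtain ⟨m, hm⟩ := Int.eq_ofNat_of_zero_le (neg_nonneg.mpr hd)
    have hd' : d = -(m : ℤ) := by omega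
    rw [hd', zpow_neg, zpow_natCast] at h1
    rw [hd', key m h1]; rfl

end Final

end Fermat.Agent.GC.Local.Unram
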