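/-
GATE-C / C3-UNRAM (helper26), (U4) abstract part: roots of unity of order prime to the residue
characteristic in a valuation ring.
* distinct roots of unity have distinct residues (`eq_of_sub_mem_nonunits`)
* the order divides `#κ - 1` (`dvd_card_residueField_sub_one`)
* if `L = F(ζ)`, `ζ` of order `#κ_F ^ n - 1`, then `[L : F] ≤ n` (`card_gal_le`)
Mathlib only.
-/
import Mathlib
import Fermat.Agent.GC.Local.Unram.Field

set_option autoImplicit false

open IsLocalRing

namespace Fermat.Agent.GC.Local.Unram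

section RootsOfUnity

variable {L : Type*} [Field L] (O : ValuationSubring L)

/-- roots of unity have valuation one -/
theorem valuation_eq_one_of_pow_eq_one {m : ℕ} (hm : 0 < m) {x : L} (hx : x ^ m = 1) :
    O.valuation x = 1 := by
  have h := congrArg O.valuation hx
  rw [map_pow, map_one] at h
  exact (pow_eq_one_iff_of_nonneg zero_le hm.ne').mp h

theorem mem_of_pow_eq_one {m : ℕ} (hm : 0 < m) {x : L} (hx : x ^ m = 1) : x ∈ O := by
  rw [← ValuationSubring.valuation_le_one_iff, valuation_eq_one_of_pow_eq_one O hm hx]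

/-- **Distinct roots of unity of order `m` have distinct residues** when `m` is a unit of `O`. -/
theorem eq_of_sub_mem_nonunits {m : ℕ} (hm : 0 < m) {ζ : L} (hζ : IsPrimitiveRoot ζ m)
    (hmO : O.valuation (m : L) = 1) {x y : L} (hx : x ^ m = 1) (hy : y ^ m = 1)
    (hxy : x - y ∈ O.nonunits) : x = y := by
  by_contra hne
  obtain ⟨m', rfl⟩ : ∃ m', m = m' + 1 := ⟨m - 1, by omega⟩
  have hy0 : y ≠ 0 := by
    rintro rfl
    rw [zero_pow (by omega)] at hy
    exact zero_ne_one hy
  -- `x / y` is a nontrivial root of unity `ζ ^ k`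
  have hz : (x / y) ^ (m' + 1) = 1 := by rw [div_pow, hx, hy, div_one]
  obtain ⟨k, hk, hkz⟩ := hζ.eq_pow_of_pow_eq_one hz
  have hk0 : k ≠ 0 := by
    rintro rfl
    rw [pow_zero] at hkz
    exact hne (by rw [eq_comm, div_eq_one_iff_eq hy0] at hkz; exact hkz)
  -- the product formula
  have hprod := hζ.prod_one_sub_pow_eq_order
  have hval : ∏ j ∈ Finset.range m', O.valuation (1 - ζ ^ (j + 1)) = 1 := by
    rw [← map_prod, hprod]
    have : ((m' : L) + 1) = ((m' + 1 : ℕ) : L) := by push_cast; ring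
    rw [this, hmO]
  have hle : ∀ j ∈ Finset.range m', O.valuation (1 - ζ ^ (j + 1)) ≤ 1 := by
    intro j _
    rw [ValuationSubring.valuation_le_one_iff]
    refine sub_mem O.one_mem ?_
    exact mem_of_pow_eq_one O (Nat.succ_pos m')
      (by rw [← pow_mul, mul_comm, pow_mul, hζ.pow_eq_one, one_pow])
  have hk1 : O.valuation (1 - ζ ^ k) = 1 := by
    obtain ⟨k', rfl⟩ : ∃ k', k = k' + 1 := ⟨k - 1, by omega⟩
    have hk'mem : k' ∈ Finset.range m' := Finset.mem_range.mpr (by omega)
    by_contra hlt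
    have hlt' : O.valuation (1 - ζ ^ (k' + 1)) < 1 := lt_of_le_of_ne (hle k' hk'mem) hlt
    have : ∏ j ∈ Finset.range m', O.valuation (1 - ζ ^ (j + 1)) < 1 := by
      rw [← Finset.mul_prod_erase _ _ hk'mem]
      calc O.valuation (1 - ζ ^ (k' + 1)) *
            ∏ j ∈ (Finset.range m').erase k', O.valuation (1 - ζ ^ (j + 1))
          ≤ O.valuation (1 - ζ ^ (k' + 1)) * 1 := by
            gcongr
            exact Finset.prod_le_one' fun j hj => hle j (Finset.mem_of_mem_erase hj)
        _ < 1 := by rw [mul_one]; exact hlt'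
    exact absurd hval this.ne
  -- conclude
  have hxy' : x - y = -(y * (1 - ζ ^ k)) := by
    rw [hkz]; field_simp; ring
  have : O.valuation (x - y) = 1 := by
    rw [hxy', Valuation.map_neg, map_mul, hk1, mul_one,
      valuation_eq_one_of_pow_eq_one O (Nat.succ_pos m') hy]
  rw [ValuationSubring.mem_nonunits_iff] at hxy
  exact absurd this hxy.ne

end RootsOfUnity

section Order

variable {L : Type*} [Field L] (O : ValuationSubring L) [Finite (IsLocalRing.ResidueField O)]

/-- the order of a root of unity (prime to the residue characteristic) divides `#κ - 1` -/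
theorem dvd_card_residueField_sub_one {m : ℕ} (hm : 0 < m) {ζ : L} (hζ : IsPrimitiveRoot ζ m)
    (hmO : O.valuation (m : L) = 1) :
    m ∣ Nat.card (IsLocalRing.ResidueField O) - 1 := by
  classical
  let _ := Fintype.ofFinite (IsLocalRing.ResidueField O)
  have hζO : ζ ∈ O := mem_of_pow_eq_one O hm hζ.pow_eq_one
  set r : IsLocalRing.ResidueField O := IsLocalRing.residue O ⟨ζ, hζO⟩ with hr
  have hrm : r ^ m = 1 := by
    rw [hr, ← map_pow]
    have : (⟨ζ, hζO⟩ : O) ^ m = 1 := Subtype.ext (by simpa using hζ.pow_eq_one)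
    rw [this, map_one]
  have hr0 : r ≠ 0 := by
    intro h0
    rw [h0, zero_pow hm.ne'] at hrm
    exact zero_ne_one hrm
  have hord : orderOf r = m := by
    rw [orderOf_eq_iff hm]
    refine ⟨hrm, fun k hk hk0 hrk => ?_⟩
    have h1 : IsLocalRing.residue O ((⟨ζ, hζO⟩ : O) ^ k - 1) = 0 := by
      rw [map_sub, map_pow, map_one, ← hr, hrk, sub_self]
    rw [IsLocalRing.residue_eq_zero_iff, ← ValuationSubring.coe_mem_nonunits_iff] at h1
    have h2 : ζ ^ k - 1 ∈ O.nonunits := by simpa using h1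
    have h3 : ζ ^ k = 1 := eq_of_sub_mem_nonunits O hm hζ hmO
      (by rw [← pow_mul, mul_comm, pow_mul, hζ.pow_eq_one, one_pow]) (one_pow m) h2
    have := (hζ.pow_eq_one_iff_dvd k).mp h3
    exact absurd (Nat.le_of_dvd hk0 this) (not_le.mpr hk)
  rw [← hord, Nat.card_eq_fintype_card]
  exact orderOf_dvd_of_pow_eq_one (FiniteField.pow_card_sub_one_eq_one r hr0)

end Order

section GalBound

variable {F L : Type*} [Field F] [Field L] [Algebra F L] [FiniteDimensional F L] [IsGalois F L]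
  (O : ValuationSubring L) [Finite (IsLocalRing.ResidueField O)]
  (hO : ∀ (σ : L ≃ₐ[F] L) (x : L), x ∈ O → σ x ∈ O)

attribute [local instance] botAlgebra botAlgebraTop
attribute [local instance] Ideal.Quotient.field

include hO in
/-- Every automorphism acts on roots of unity (of order prime to the residue characteristic)
as a power of the Frobenius `x ↦ x ^ #κ_F`. -/
theorem exists_apply_eq_pow_card {m : ℕ} (hm : 0 < m) {ζ : L} (hζ : IsPrimitiveRoot ζ m)
    (hmO : O.valuation (m : L) = 1) (σ : L ≃ₐ[F] L) :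
    ∃ i : ℕ, σ ζ = ζ ^ (Nat.card (IsLocalRing.ResidueField (bot (F := F) O)) ^ i) := by
  classical
  let _ := galAction O hO
  have hGG : IsGaloisGroup (L ≃ₐ[F] L) (bot (F := F) O) O := isGaloisGroup_bot O hO
  have hlies : (maximalIdeal O).LiesOver (maximalIdeal (bot (F := F) O)) := liesOver_bot O
  have hfinO : Finite (O ⧸ maximalIdeal O) := ‹Finite (IsLocalRing.ResidueField O)›
  have hresfin : Finite (bot (F := F) O ⧸ maximalIdeal (bot (F := F) O)) :=
    Finite.of_injective _ (FaithfulSMul.algebraMap_injective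
      (bot (F := F) O ⧸ maximalIdeal (bot (F := F) O)) (O ⧸ maximalIdeal O))
  obtain ⟨p, hp⟩ := CharP.exists (bot (F := F) O ⧸ maximalIdeal (bot (F := F) O))
  have hpp : Fact p.Prime := ⟨CharP.char_is_prime (bot (F := F) O ⧸ maximalIdeal (bot (F := F) O)) p⟩
  obtain ⟨i, hi⟩ := FiniteField.exists_forall_apply_eq_pow
    (bot (F := F) O ⧸ maximalIdeal (bot (F := F) O)) p (O ⧸ maximalIdeal O)
    (resHom (A := bot (F := F) O) (B := O) (L ≃ₐ[F] L) σ)
  refine ⟨i, ?_⟩
  have hζO : ζ ∈ O := mem_of_pow_eq_one O hm hζ.pow_eq_one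
  have h1 := hi (Ideal.Quotient.mk (maximalIdeal O) ⟨ζ, hζO⟩)
  have h2 : resHom (A := bot (F := F) O) (B := O) (L ≃ₐ[F] L) σ
      (Ideal.Quotient.mk (maximalIdeal O) ⟨ζ, hζO⟩) =
      Ideal.Quotient.mk (maximalIdeal O) (σ • (⟨ζ, hζO⟩ : O)) := rfl
  rw [h2, ← map_pow, ← sub_eq_zero, ← map_sub, Ideal.Quotient.eq_zero_iff_mem,
    ← ValuationSubring.coe_mem_nonunits_iff] at h1
  have h3 : σ ζ - ζ ^ (Nat.card (IsLocalRing.ResidueField (bot (F := F) O)) ^ i) ∈ O.nonunits := h1
  refine eq_of_sub_mem_nonunits O hm hζ hmO ?_ ?_ h3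
  · rw [← map_pow, hζ.pow_eq_one, map_one]
  · rw [← pow_mul, mul_comm, pow_mul, hζ.pow_eq_one, one_pow]

include hO in
/-- **Degree bound.** If `L = F(ζ)` with `ζ` of order `#κ_F ^ n - 1` then `[L : F] ≤ n`. -/
theorem card_gal_le {n : ℕ} (hn : 0 < n) {ζ : L}
    (hζ : IsPrimitiveRoot ζ (Nat.card (IsLocalRing.ResidueField (bot (F := F) O)) ^ n - 1))
    (hm : 0 < Nat.card (IsLocalRing.ResidueField (bot (F := F) O)) ^ n - 1)
    (hmO : O.valuation
      ((Nat.card (IsLocalRing.ResidueField (bot (F := F) O)) ^ n - 1 : ℕ) : L) = 1)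
    (hgen : ∀ σ : L ≃ₐ[F] L, σ ζ = ζ → σ = 1) :
    Nat.card (L ≃ₐ[F] L) ≤ n := by
  classical
  set Q := Nat.card (IsLocalRing.ResidueField (bot (F := F) O)) with hQ
  have hQn : 1 ≤ Q ^ n := by omega
  -- `ζ ^ (Q ^ n) = ζ`
  have hζQ : ζ ^ (Q ^ n) = ζ := by
    have : Q ^ n = (Q ^ n - 1) + 1 := by omega
    rw [this, pow_succ, hζ.pow_eq_one, one_mul]
  have hper : ∀ i : ℕ, ζ ^ (Q ^ (i % n)) = ζ ^ (Q ^ i) := by
    intro i
    induction i using Nat.strong_induction_on with
    | _ i ih =>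
      rcases lt_or_ge i n with h | h
      · rw [Nat.mod_eq_of_lt h]
      · have h1 : i = (i - n) + n := by omega
        have h2 : ζ ^ (Q ^ i) = ζ ^ (Q ^ (i - n)) := by
          conv_lhs => rw [h1, pow_add, mul_comm, pow_mul, hζQ]
        rw [h2, ← ih (i - n) (by omega)]
        congr 2
        conv_lhs => rw [h1, Nat.add_mod_right]
  choose f hf using fun σ : L ≃ₐ[F] L => exists_apply_eq_pow_card O hO hm hζ hmO σ
  let g : (L ≃ₐ[F] L) → Fin n := fun σ => ⟨f σ % n, Nat.mod_lt _ hn⟩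
  have hg : Function.Injective g := by
    intro σ τ hστ
    have h1 : f σ % n = f τ % n := congrArg Fin.val hστ
    have h2 : σ ζ = τ ζ := by
      rw [hf σ, hf τ, ← hper (f σ), ← hper (f τ), h1]
    have h3 : (τ⁻¹ * σ) ζ = ζ := by
      rw [AlgEquiv.mul_apply, h2]
      exact τ.symm_apply_apply ζ
    have := hgen _ h3
    rw [inv_mul_eq_one] at this
    exact this.symm
  calc Nat.card (L ≃ₐ[F] L) ≤ Nat.card (Fin n) := Nat.card_le_card_of_injective g hg
    _ = n := Nat.card_fin n

end GalBound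

section GalBound'

variable {F L : Type*} [Field F] [Field L] [Algebra F L] [FiniteDimensional F L] [IsGalois F L]
  (O : ValuationSubring L) [Finite (IsLocalRing.ResidueField O)]
  (hO : ∀ (σ : L ≃ₐ[F] L) (x : L), x ∈ O → σ x ∈ O)

include hO in
/-- **Degree bound, general form.** If `L = F(ζ)`, `ζ` a primitive `m`-th root of unity with `m`
a unit of `O`, and `ζ ^ (#κ_F ^ r) = ζ`, `r > 0`, then `[L : F] ≤ r`. -/
theorem card_gal_le_of_pow {m : ℕ} (hm : 0 < m) {ζ : L} (hζ : IsPrimitiveRoot ζ m)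
    (hmO : O.valuation (m : L) = 1) {r : ℕ} (hr : 0 < r)
    (hζQ : ζ ^ (Nat.card (IsLocalRing.ResidueField (bot (F := F) O)) ^ r) = ζ)
    (hgen : ∀ σ : L ≃ₐ[F] L, σ ζ = ζ → σ = 1) :
    Nat.card (L ≃ₐ[F] L) ≤ r := by
  classical
  set Q := Nat.card (IsLocalRing.ResidueField (bot (F := F) O)) with hQ
  have hper : ∀ i : ℕ, ζ ^ (Q ^ (i % r)) = ζ ^ (Q ^ i) := by
    intro i
    induction i using Nat.strong_induction_on with
    | _ i ih =>
      rcases lt_or_ge i r with h | h
      · rw [Nat.mod_eq_of_lt h]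
      · have h1 : i = (i - r) + r := by omega
        have h2 : ζ ^ (Q ^ i) = ζ ^ (Q ^ (i - r)) := by
          conv_lhs => rw [h1, pow_add, mul_comm, pow_mul, hζQ]
        rw [h2, ← ih (i - r) (by omega)]
        congr 2
        conv_lhs => rw [h1, Nat.add_mod_right]
  choose f hf using fun σ : L ≃ₐ[F] L => exists_apply_eq_pow_card O hO hm hζ hmO σ
  let g : (L ≃ₐ[F] L) → Fin r := fun σ => ⟨f σ % r, Nat.mod_lt _ hr⟩
  have hg : Function.Injective g := by
    intro σ τ hστ
    have h1 : f σ % r = f τ % r := congrArg Fin.val hστ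
    have h2 : σ ζ = τ ζ := by
      rw [hf σ, hf τ, ← hper (f σ), ← hper (f τ), h1]
    have h3 : (τ⁻¹ * σ) ζ = ζ := by
      rw [AlgEquiv.mul_apply, h2]
      exact τ.symm_apply_apply ζ
    have := hgen _ h3
    rw [inv_mul_eq_one] at this
    exact this.symm
  calc Nat.card (L ≃ₐ[F] L) ≤ Nat.card (Fin r) := Nat.card_le_card_of_injective g hg
    _ = r := Nat.card_fin r

end GalBound'

end Fermat.Agent.GC.Local.Unram
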