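/-
GATE-C / C3-UNRAM (helper26), (U4): towers `ℚ_q ⊆ E ⊆ L` of finite extensions, on top of
helper60's `padicVS`, `ramIdx`, `resDeg`.
* `ramIdx_dvd_tower` : `e(E) ∣ e(L)`; equality ⇒ a uniformiser of `E` is a uniformiser of `L`.
-/
import Mathlib
import Fermat.Agent.GC.Local.Ramification
import Fermat.Agent.GC.Local.RamificationCard
import Fermat.Agent.GC.Local.Unram.Cyclo

set_option autoImplicit false

open scoped Padic
open IsLocalRing

namespace Fermat.Agent.GC.Local.Unram

open Fermat.Agent.GC.Local

section Tower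

variable (q : ℕ) [Fact q.Prime] (E L : Type*) [Field E] [Field L] [Algebra ℚ_[q] E]
  [Algebra ℚ_[q] L] [Algebra E L] [IsScalarTower ℚ_[q] E L] [FiniteDimensional ℚ_[q] E]
  [FiniteDimensional ℚ_[q] L]

theorem algebraMap_mem_padicVS_iff (x : E) : algebraMap E L x ∈ padicVS q L ↔ x ∈ padicVS q E := by
  rw [mem_padicVS_iff, mem_padicVS_iff, ← spectralNorm.eq_of_tower]

/-- the inclusion of valuation rings in a tower -/
noncomputable def towerHom : padicVS q E →+* padicVS q L where
  toFun x := ⟨algebraMap E L x, (algebraMap_mem_padicVS_iff q E L x).mpr x.2⟩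
  map_one' := by ext; simp
  map_mul' x y := by ext; simp
  map_zero' := by ext; simp
  map_add' x y := by ext; simp

theorem towerHom_coe (x : padicVS q E) : ((towerHom q E L x : padicVS q L) : L) =
    algebraMap E L x := rfl

theorem towerHom_injective : Function.Injective (towerHom q E L) := by
  intro x y h
  have := congrArg (fun z : padicVS q L => (z : L)) h
  simp only [towerHom_coe] at this
  exact Subtype.ext ((algebraMap E L).injective this)

theorem towerHom_primeElt : towerHom q E L (primeElt q E) = primeElt q L := by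
  apply Subtype.ext
  rw [towerHom_coe, primeElt_coe, primeElt_coe, ← IsScalarTower.algebraMap_apply]

theorem isUnit_towerHom_iff (x : padicVS q E) : IsUnit (towerHom q E L x) ↔ IsUnit x := by
  constructor
  · intro h
    by_contra hx
    have h1 : (x : E) ∈ (padicVS q E).nonunits := by
      rw [ValuationSubring.coe_mem_nonunits_iff, mem_maximalIdeal]; exact hx
    rw [mem_nonunits_padicVS_iff, spectralNorm.eq_of_tower (L := L)] at h1
    have h2 : ((towerHom q E L x : padicVS q L) : L) ∈ (padicVS q L).nonunits := by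
      rw [mem_nonunits_padicVS_iff, towerHom_coe]; exact h1
    rw [ValuationSubring.coe_mem_nonunits_iff, mem_maximalIdeal] at h2
    exact h2 h
  · intro h
    exact h.map _

/-- `e(L) = j · e(E)`; if `e(L) = e(E)` a uniformiser of `E` stays a uniformiser in `L`. -/
theorem ramIdx_tower {ϖ : padicVS q E} (hϖ : Irreducible ϖ) :
    ∃ j : ℕ, 0 < j ∧ ramIdx q L = j * ramIdx q E ∧
      (j = 1 → Irreducible (towerHom q E L ϖ)) := by
  have hdE := padicVS_isDiscreteValuationRing q E
  have hdL := padicVS_isDiscreteValuationRing q L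
  obtain ⟨ϖL, hϖL⟩ := IsDiscreteValuationRing.exists_irreducible (padicVS q L)
  -- `q = unit * ϖ ^ e` in `O_E`
  have h1 := span_primeElt_eq q E
  rw [hϖ.maximalIdeal_eq, Ideal.span_singleton_pow,
    Ideal.span_singleton_eq_span_singleton] at h1
  obtain ⟨u, hu⟩ := h1
  have h2 : primeElt q L * towerHom q E L u = (towerHom q E L ϖ) ^ ramIdx q E := by
    rw [← towerHom_primeElt q E L, ← map_mul, hu, map_pow]
  have hx0 : towerHom q E L ϖ ≠ 0 := by
    intro h0
    exact hϖ.ne_zero (towerHom_injective q E L (by rw [h0, map_zero]))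
  have hxnu : ¬ IsUnit (towerHom q E L ϖ) := by
    rw [isUnit_towerHom_iff]; exact hϖ.not_isUnit
  obtain ⟨j, v, hv⟩ := IsDiscreteValuationRing.eq_unit_mul_pow_irreducible hx0 hϖL
  have hj : 0 < j := by
    rcases Nat.eq_zero_or_pos j with rfl | h
    · exfalso; apply hxnu; rw [hv, pow_zero, mul_one]; exact v.isUnit
    · exact h
  refine ⟨j, hj, ?_, ?_⟩
  · symm
    apply ramIdx_eq_of_span_eq
    rw [hϖL.maximalIdeal_eq, Ideal.span_singleton_pow, Ideal.span_singleton_eq_span_singleton]
    have hunit : IsUnit (towerHom q E L u) := (u.isUnit).map _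
    have : primeElt q L * (towerHom q E L u * ((v⁻¹ : (padicVS q L)ˣ) : padicVS q L) ^ ramIdx q E)
        = ϖL ^ (j * ramIdx q E) := by
      rw [← mul_assoc, h2, hv, mul_pow, ← pow_mul, mul_comm (_ ^ _) (ϖL ^ _), mul_assoc, ← mul_pow,
        Units.mul_inv, one_pow, mul_one]
    exact ⟨(hunit.mul ((v⁻¹).isUnit.pow _)).unit, this⟩
  · intro hj1
    rw [hv, hj1, pow_one]
    exact (associated_unit_mul_left _ _ v.isUnit).irreducible_iff.mpr hϖL

end Tower

section ResidueTower

variable (q : ℕ) [Fact q.Prime] (E L : Type*) [Field E] [Field L] [Algebra ℚ_[q] E]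
  [Algebra ℚ_[q] L] [Algebra E L] [IsScalarTower ℚ_[q] E L] [FiniteDimensional ℚ_[q] E]
  [FiniteDimensional ℚ_[q] L]

instance towerHom_isLocalHom : IsLocalHom (towerHom q E L) :=
  ⟨fun x hx => (isUnit_towerHom_iff q E L x).mp hx⟩

/-- the residue field of the top field has cardinality a power of that of the bottom field -/
theorem card_residueField_tower :
    ∃ k : ℕ, 0 < k ∧ Nat.card (IsLocalRing.ResidueField (padicVS q L)) =
      Nat.card (IsLocalRing.ResidueField (padicVS q E)) ^ k := by
  have hfE := padicVS_finite_residueField q E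
  have hfL := padicVS_finite_residueField q L
  let _ : Algebra (IsLocalRing.ResidueField (padicVS q E))
      (IsLocalRing.ResidueField (padicVS q L)) :=
    (IsLocalRing.ResidueField.map (towerHom q E L)).toAlgebra
  have hfin : Module.Finite (IsLocalRing.ResidueField (padicVS q E))
      (IsLocalRing.ResidueField (padicVS q L)) := Module.Finite.of_finite
  refine ⟨Module.finrank (IsLocalRing.ResidueField (padicVS q E))
      (IsLocalRing.ResidueField (padicVS q L)), Module.finrank_pos, ?_⟩
  exact Module.natCard_eq_pow_finrank (K := IsLocalRing.ResidueField (padicVS q E))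
    (V := IsLocalRing.ResidueField (padicVS q L))

/-- if `e(L) = e(E)` then EVERY uniformiser of `E` stays a uniformiser of `L` -/
theorem irreducible_towerHom_of_ramIdx_eq (h : ramIdx q L = ramIdx q E) {ϖ : padicVS q E}
    (hϖ : Irreducible ϖ) : Irreducible (towerHom q E L ϖ) := by
  obtain ⟨j, _, hjL, hirr⟩ := ramIdx_tower q E L hϖ
  apply hirr
  have hpos := ramIdx_pos q E
  rw [h] at hjL
  exact Nat.eq_of_mul_eq_mul_right hpos (by omega : j * ramIdx q E = 1 * ramIdx q E)

/-- if `e(L) = e(E)` then `f(L) = f(E) · [L : E]` -/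
theorem resDeg_tower_of_ramIdx_eq (h : ramIdx q L = ramIdx q E) :
    resDeg q L = resDeg q E * Module.finrank E L := by
  have hefL := ramIdx_mul_resDeg q L
  have hefE := ramIdx_mul_resDeg q E
  have htower : Module.finrank ℚ_[q] L = Module.finrank ℚ_[q] E * Module.finrank E L :=
    (Module.finrank_mul_finrank ℚ_[q] E L).symm
  have hpos := ramIdx_pos q E
  rw [h] at hefL
  apply Nat.eq_of_mul_eq_mul_left hpos
  rw [hefL, htower, ← hefE, mul_assoc]

end ResidueTower

end Fermat.Agent.GC.Local.Unram
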