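/-
GATE-C / C3-UNRAM (helper26), (U4) EXISTENCE, abstract form: for a finite extension `E` of `ℚ_q`
and `n > 0` the cyclotomic extension `E(ζ)`, `ζ` of order `#κ_E ^ n - 1`, is Galois of degree `n`
and UNRAMIFIED (a uniformiser of `E` stays a uniformiser).
-/
import Mathlib
import Fermat.Agent.GC.Local.Unram.Tower

set_option autoImplicit false

open scoped Padic
open IsLocalRing

namespace Fermat.Agent.GC.Local.Unram

open Fermat.Agent.GC.Local

universe u

section Defs

variable (q : ℕ) [Fact q.Prime] (E : Type u) [Field E] [Algebra ℚ_[q] E]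
  [FiniteDimensional ℚ_[q] E] (n : ℕ)

/-- cardinality of the residue field of `E` -/
noncomputable def resCard : ℕ := Nat.card (IsLocalRing.ResidueField (padicVS q E))

theorem two_le_resCard : 2 ≤ resCard q E := by
  have := padicVS_finite_residueField q E
  exact Finite.one_lt_card

theorem resCard_eq : resCard q E = q ^ resDeg q E := card_residueField_eq q E

theorem resDeg_pos : 0 < resDeg q E := by
  rcases Nat.eq_zero_or_pos (resDeg q E) with h | h
  · have := two_le_resCard q E
    rw [resCard_eq, h, pow_zero] at this
    omega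
  · exact h

/-- the order of the root of unity generating the unramified extension of degree `n` -/
noncomputable def unramOrder : ℕ := resCard q E ^ n - 1

theorem unramOrder_pos (hn : 0 < n) : 0 < unramOrder q E n := by
  have h2 := two_le_resCard q E
  have : 2 ^ n ≤ resCard q E ^ n := Nat.pow_le_pow_left h2 n
  have : 2 ≤ 2 ^ n := by
    calc 2 = 2 ^ 1 := (pow_one 2).symm
      _ ≤ 2 ^ n := Nat.pow_le_pow_right (by norm_num) hn
  unfold unramOrder
  omega

/-- **The unramified extension of degree `n`** of a finite extension `E` of `ℚ_q`. -/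
def UnramExt : Type u := CyclotomicField (unramOrder q E n) E

noncomputable instance : Field (UnramExt q E n) :=
  inferInstanceAs (Field (CyclotomicField (unramOrder q E n) E))

noncomputable instance : Algebra E (UnramExt q E n) :=
  inferInstanceAs (Algebra E (CyclotomicField (unramOrder q E n) E))

noncomputable instance : Algebra ℚ_[q] (UnramExt q E n) :=
  ((algebraMap E (UnramExt q E n)).comp (algebraMap ℚ_[q] E)).toAlgebra

instance : IsScalarTower ℚ_[q] E (UnramExt q E n) := IsScalarTower.of_algebraMap_eq' rfl

omit [FiniteDimensional ℚ_[q] E] in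
include q in
theorem charZero_of_padic : CharZero E :=
  charZero_of_injective_algebraMap (algebraMap ℚ_[q] E).injective

variable [NeZero n]

instance : NeZero (unramOrder q E n) := ⟨(unramOrder_pos q E n (NeZero.pos n)).ne'⟩

instance : IsCyclotomicExtension {unramOrder q E n} E (UnramExt q E n) := by
  have := charZero_of_padic q E
  exact CyclotomicField.isCyclotomicExtension (unramOrder q E n) E

instance : FiniteDimensional E (UnramExt q E n) :=
  IsCyclotomicExtension.finiteDimensional {unramOrder q E n} E (UnramExt q E n)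

instance : IsGalois E (UnramExt q E n) :=
  IsCyclotomicExtension.isGalois {unramOrder q E n} E (UnramExt q E n)

instance : FiniteDimensional ℚ_[q] (UnramExt q E n) := FiniteDimensional.trans ℚ_[q] E _

end Defs

section Core

variable (q : ℕ) [Fact q.Prime] (E : Type u) [Field E] [Algebra ℚ_[q] E]
  [FiniteDimensional ℚ_[q] E] (n : ℕ) [NeZero n]

/-- the chosen primitive root of unity in the unramified extension -/
noncomputable def unramZeta : UnramExt q E n :=
  IsCyclotomicExtension.zeta (unramOrder q E n) E (UnramExt q E n)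

theorem unramZeta_spec : IsPrimitiveRoot (unramZeta q E n) (unramOrder q E n) :=
  IsCyclotomicExtension.zeta_spec (unramOrder q E n) E (UnramExt q E n)

/-- an automorphism fixing `ζ` is trivial -/
theorem eq_one_of_apply_unramZeta (σ : UnramExt q E n ≃ₐ[E] UnramExt q E n)
    (h : σ (unramZeta q E n) = unramZeta q E n) : σ = 1 := by
  have htop := IsCyclotomicExtension.adjoin_primitive_root_eq_top (A := E)
    (B := UnramExt q E n) (unramZeta_spec q E n)
  have : (σ : UnramExt q E n →ₐ[E] UnramExt q E n) =
      ((1 : UnramExt q E n ≃ₐ[E] UnramExt q E n) : UnramExt q E n →ₐ[E] UnramExt q E n) := by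
    apply AlgHom.ext_of_adjoin_eq_top htop
    intro x hx
    rw [Set.mem_singleton_iff] at hx
    subst hx
    simpa using h
  ext x
  exact congrArg (fun f : UnramExt q E n →ₐ[E] UnramExt q E n => f x) this

/-- the valuation of `q` in the top field is `< 1` -/
theorem valuation_natCast_prime_lt_one (L : Type*) [Field L] [Algebra ℚ_[q] L]
    [FiniteDimensional ℚ_[q] L] : (padicVS q L).valuation ((q : ℕ) : L) < 1 := by
  rw [← ValuationSubring.mem_nonunits_iff]
  have h := primeElt_mem_maximalIdeal q L
  rw [← ValuationSubring.coe_mem_nonunits_iff, primeElt_coe] at h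
  simpa using h

/-- `#κ_E ^ n - 1` is a unit in every finite extension `L` of `E` -/
theorem valuation_unramOrder (L : Type*) [Field L] [Algebra ℚ_[q] L]
    [FiniteDimensional ℚ_[q] L] :
    (padicVS q L).valuation ((unramOrder q E n : ℕ) : L) = 1 := by
  have hn : 0 < n := NeZero.pos n
  have h1 : 1 ≤ resCard q E ^ n := Nat.one_le_pow _ _ (by have := two_le_resCard q E; omega)
  unfold unramOrder
  rw [Nat.cast_sub h1, Nat.cast_one, ← Valuation.map_neg, neg_sub]
  apply Valuation.map_one_sub_of_lt
  rw [resCard_eq, ← pow_mul, Nat.cast_pow, map_pow]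
  exact pow_lt_one₀ zero_le (valuation_natCast_prime_lt_one q L)
    (Nat.mul_pos (resDeg_pos q E) hn).ne'

end Core

section Main

variable (q : ℕ) [Fact q.Prime] (E : Type u) [Field E] [Algebra ℚ_[q] E]
  [FiniteDimensional ℚ_[q] E] (n : ℕ) [NeZero n]

/-- numerical core: degree `n`, same ramification index -/
theorem unramExt_core :
    Module.finrank E (UnramExt q E n) = n ∧ ramIdx q (UnramExt q E n) = ramIdx q E ∧
      resDeg q (UnramExt q E n) = resDeg q E * n := by
  have hn : 0 < n := NeZero.pos n
  have hdL := padicVS_isDiscreteValuationRing q (UnramExt q E n)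
  have hfL := padicVS_finite_residueField q (UnramExt q E n)
  have hdE := padicVS_isDiscreteValuationRing q E
  have hO : ∀ (σ : UnramExt q E n ≃ₐ[E] UnramExt q E n) (x : UnramExt q E n),
      x ∈ padicVS q (UnramExt q E n) → σ x ∈ padicVS q (UnramExt q E n) :=
    fun σ x hx => padicVS_galStable q (UnramExt q E n) E σ x hx
  have hbot : bot (F := E) (padicVS q (UnramExt q E n)) = padicVS q E :=
    padicVS_comap q (UnramExt q E n) E
  have hcardbot : Nat.card (IsLocalRing.ResidueField
      (bot (F := E) (padicVS q (UnramExt q E n)))) = resCard q E := by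
    rw [hbot]; rfl
  have hm : 0 < unramOrder q E n := unramOrder_pos q E n hn
  have hζ := unramZeta_spec q E n
  have hmO := valuation_unramOrder q E n (UnramExt q E n)
  -- (N3) degree bound
  have hgal : Nat.card (UnramExt q E n ≃ₐ[E] UnramExt q E n) ≤ n := by
    refine card_gal_le (padicVS q (UnramExt q E n)) hO hn (ζ := unramZeta q E n) ?_ ?_ ?_
      (eq_one_of_apply_unramZeta q E n)
    · rw [hcardbot]; exact hζ
    · rw [hcardbot]; exact hm
    · rw [hcardbot]; exact hmO
  rw [IsGalois.card_aut_eq_finrank] at hgal
  -- (N2) residue degree bound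
  have hdvd := dvd_card_residueField_sub_one (padicVS q (UnramExt q E n)) hm hζ hmO
  have hres : resDeg q E * n ≤ resDeg q (UnramExt q E n) := by
    have h1 : unramOrder q E n ≤ Nat.card (IsLocalRing.ResidueField
        (padicVS q (UnramExt q E n))) - 1 := by
      apply Nat.le_of_dvd _ hdvd
      have : 2 ≤ Nat.card (IsLocalRing.ResidueField (padicVS q (UnramExt q E n))) :=
        Finite.one_lt_card
      omega
    rw [card_residueField_eq, unramOrder, resCard_eq, ← pow_mul] at h1
    have hq : 1 < q := (Fact.out : q.Prime).one_lt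
    have h2 : q ^ (resDeg q E * n) ≤ q ^ resDeg q (UnramExt q E n) := by
      have h3 : 1 ≤ q ^ (resDeg q E * n) := Nat.one_le_pow _ _ (by omega)
      have h4 : 1 ≤ q ^ resDeg q (UnramExt q E n) := Nat.one_le_pow _ _ (by omega)
      omega
    exact (Nat.pow_le_pow_iff_right hq).mp h2
  -- (N1) ramification index
  obtain ⟨ϖ, hϖ⟩ := IsDiscreteValuationRing.exists_irreducible (padicVS q E)
  obtain ⟨j, hj, hjL, -⟩ := ramIdx_tower q E (UnramExt q E n) hϖ
  -- numerics
  have hefL := ramIdx_mul_resDeg q (UnramExt q E n)
  have hefE := ramIdx_mul_resDeg q E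
  have htower : Module.finrank ℚ_[q] (UnramExt q E n) =
      Module.finrank ℚ_[q] E * Module.finrank E (UnramExt q E n) :=
    (Module.finrank_mul_finrank ℚ_[q] E (UnramExt q E n)).symm
  have heE : 0 < ramIdx q E := ramIdx_pos q E
  have hfE : 0 < resDeg q E := resDeg_pos q E
  set eE := ramIdx q E
  set fE := resDeg q E
  set fL := resDeg q (UnramExt q E n)
  set d := Module.finrank E (UnramExt q E n)
  -- `j * eE * fL = eE * fE * d`, `d ≤ n`, `fE * n ≤ fL`, `1 ≤ j`
  have hmain : j * eE * fL = eE * fE * d := by
    rw [← hjL, hefL, htower, ← hefE]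
  have h5 : eE * (fE * n) ≤ eE * fE * d := by
    calc eE * (fE * n) ≤ j * eE * fL := by
          calc eE * (fE * n) ≤ eE * fL := Nat.mul_le_mul_left _ hres
            _ = 1 * eE * fL := by ring
            _ ≤ j * eE * fL := by gcongr; omega
      _ = eE * fE * d := hmain
  have h6 : n ≤ d := by
    have : eE * fE * n ≤ eE * fE * d := by rw [mul_assoc]; exact h5
    exact Nat.le_of_mul_le_mul_left this (Nat.mul_pos heE hfE)
  have hd : d = n := le_antisymm hgal h6
  have hj1 : j = 1 := by
    by_contra hne
    have hj2 : 2 ≤ j := by omega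
    have : 2 * eE * (fE * n) ≤ eE * fE * n := by
      calc 2 * eE * (fE * n) ≤ j * eE * fL := by gcongr
        _ = eE * fE * d := hmain
        _ = eE * fE * n := by rw [hd]
    have hpos : 0 < eE * (fE * n) := Nat.mul_pos heE (Nat.mul_pos hfE hn)
    nlinarith
  refine ⟨hd, by rw [hjL, hj1, one_mul], ?_⟩
  rw [hj1, one_mul, hd] at hmain
  have : eE * fL = eE * (fE * n) := by rw [hmain]; ring
  exact Nat.eq_of_mul_eq_mul_left heE this

theorem finrank_unramExt : Module.finrank E (UnramExt q E n) = n := (unramExt_core q E n).1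

/-- the unramified extension is unramified: a uniformiser of `E` stays a uniformiser -/
theorem isUnram_unramExt :
    ∃ c : E, ∃ h : algebraMap E (UnramExt q E n) c ∈ padicVS q (UnramExt q E n),
      Irreducible (⟨algebraMap E (UnramExt q E n) c, h⟩ : padicVS q (UnramExt q E n)) := by
  have hdE := padicVS_isDiscreteValuationRing q E
  obtain ⟨ϖ, hϖ⟩ := IsDiscreteValuationRing.exists_irreducible (padicVS q E)
  obtain ⟨j, hj, hjL, hirr⟩ := ramIdx_tower q E (UnramExt q E n) hϖ
  have he := (unramExt_core q E n).2.1
  have hj1 : j = 1 := by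
    have heE : 0 < ramIdx q E := ramIdx_pos q E
    rw [he] at hjL
    have : 1 * ramIdx q E = j * ramIdx q E := by rw [one_mul]; exact hjL
    exact (Nat.eq_of_mul_eq_mul_right heE this).symm
  exact ⟨(ϖ : E), (towerHom q E (UnramExt q E n) ϖ).2, hirr hj1⟩

end Main

end Fermat.Agent.GC.Local.Unram
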