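/-
GATE-C / C3-UNRAM (helper26), (U6): cyclotomic extensions of order prime to `q` of a finite
extension `E` of `ℚ_q` are UNRAMIFIED, of degree `orderOf (#κ_E : ZMod N)`.
-/
import Mathlib
import Fermat.Agent.GC.Local.Unram.Exist

set_option autoImplicit false

open scoped Padic
open IsLocalRing

namespace Fermat.Agent.GC.Local.Unram

open Fermat.Agent.GC.Local

section U6

variable (q : ℕ) [Fact q.Prime] (E L : Type*) [Field E] [Field L] [Algebra ℚ_[q] E]
  [Algebra ℚ_[q] L] [Algebra E L] [IsScalarTower ℚ_[q] E L] [FiniteDimensional ℚ_[q] E]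
  [FiniteDimensional ℚ_[q] L]

omit [FiniteDimensional ℚ_[q] E] [Field E] [Algebra ℚ_[q] E] [Algebra E L]
  [IsScalarTower ℚ_[q] E L] in
/-- integers prime to `q` are units of the valuation ring -/
theorem valuation_natCast_of_coprime {N : ℕ} (hN : N.Coprime q) :
    (padicVS q L).valuation (N : L) = 1 := by
  have hle : ∀ a : ℤ, (padicVS q L).valuation (a : L) ≤ 1 := fun a => by
    rw [ValuationSubring.valuation_le_one_iff]; exact intCast_mem _ a
  have hq := valuation_natCast_prime_lt_one q L
  -- Bezout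
  have hb : (N : ℤ) * Nat.gcdA N q + (q : ℤ) * Nat.gcdB N q = 1 := by
    have := Nat.gcd_eq_gcd_ab N q
    rw [hN.gcd_eq_one] at this
    exact_mod_cast this.symm
  have hb' : (N : L) * ((Nat.gcdA N q : ℤ) : L) = 1 - (q : L) * ((Nat.gcdB N q : ℤ) : L) := by
    have := congrArg (fun z : ℤ => (z : L)) hb
    push_cast at this
    rw [← this]; ring
  have h1 : (padicVS q L).valuation ((N : L) * ((Nat.gcdA N q : ℤ) : L)) = 1 := by
    rw [hb']
    apply Valuation.map_one_sub_of_lt
    rw [map_mul]
    calc (padicVS q L).valuation ((q : ℕ) : L) * (padicVS q L).valuation ((Nat.gcdB N q : ℤ) : L)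
        ≤ (padicVS q L).valuation ((q : ℕ) : L) * 1 := by gcongr; exact hle _
      _ < 1 := by rw [mul_one]; exact hq
  rw [map_mul] at h1
  have hN1 : (padicVS q L).valuation (N : L) ≤ 1 := by
    rw [ValuationSubring.valuation_le_one_iff]; exact natCast_mem _ N
  refine le_antisymm hN1 ?_
  by_contra hlt
  rw [not_le] at hlt
  have : (padicVS q L).valuation (N : L) * (padicVS q L).valuation ((Nat.gcdA N q : ℤ) : L) < 1 := by
    calc _ ≤ (padicVS q L).valuation (N : L) * 1 := by gcongr; exact hle _
      _ < 1 := by rw [mul_one]; exact hlt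
  exact absurd h1 this.ne

end U6

section U6Main

variable (q : ℕ) [Fact q.Prime] (E L : Type*) [Field E] [Field L] [Algebra ℚ_[q] E]
  [Algebra ℚ_[q] L] [Algebra E L] [IsScalarTower ℚ_[q] E L] [FiniteDimensional ℚ_[q] E]
  [FiniteDimensional ℚ_[q] L] (N : ℕ) [NeZero N] [IsCyclotomicExtension {N} E L]

omit [FiniteDimensional ℚ_[q] L] [Algebra ℚ_[q] L] [IsScalarTower ℚ_[q] E L] in
/-- an automorphism of a cyclotomic extension fixing a primitive root is trivial -/
theorem eq_one_of_apply_primitiveRoot {ζ : L} (hζ : IsPrimitiveRoot ζ N) (σ : L ≃ₐ[E] L)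
    (h : σ ζ = ζ) : σ = 1 := by
  have htop := IsCyclotomicExtension.adjoin_primitive_root_eq_top (A := E) (B := L) hζ
  have : (σ : L →ₐ[E] L) = ((1 : L ≃ₐ[E] L) : L →ₐ[E] L) := by
    apply AlgHom.ext_of_adjoin_eq_top htop
    intro x hx
    rw [Set.mem_singleton_iff] at hx
    subst hx
    simpa using h
  ext x
  exact congrArg (fun f : L →ₐ[E] L => f x) this

/-- **(U6)** A cyclotomic extension `L = E(ζ_N)`, `N` prime to `q`, of a finite extension `E` of
`ℚ_q` has degree `orderOf (#κ_E : ZMod N)`, the same ramification index as `E`, and a uniformiser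
of `E` stays a uniformiser of `L`. -/
theorem cyclotomic_unram (hN : N.Coprime q) :
    Module.finrank E L = orderOf ((resCard q E : ℕ) : ZMod N) ∧
    ramIdx q L = ramIdx q E ∧
    ∃ c : E, ∃ h : algebraMap E L c ∈ padicVS q L,
      Irreducible (⟨algebraMap E L c, h⟩ : padicVS q L) := by
  have hGal : IsGalois E L := IsCyclotomicExtension.isGalois {N} E L
  have hfd : FiniteDimensional E L := IsCyclotomicExtension.finiteDimensional {N} E L
  have hdL := padicVS_isDiscreteValuationRing q L
  have hfL := padicVS_finite_residueField q L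
  have hdE := padicVS_isDiscreteValuationRing q E
  have hNpos : 0 < N := NeZero.pos N
  have hO : ∀ (σ : L ≃ₐ[E] L) (x : L), x ∈ padicVS q L → σ x ∈ padicVS q L :=
    fun σ x hx => padicVS_galStable q L E σ x hx
  have hbot : bot (F := E) (padicVS q L) = padicVS q E := padicVS_comap q L E
  have hcardbot : Nat.card (IsLocalRing.ResidueField (bot (F := E) (padicVS q L))) =
      resCard q E := by
    rw [hbot]; rfl
  have hζ := IsCyclotomicExtension.zeta_spec N E L
  set ζ := IsCyclotomicExtension.zeta N E L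
  have hmO := valuation_natCast_of_coprime q L hN
  set Q := resCard q E with hQdef
  -- `Q` is a unit mod `N`
  have hQcop : Nat.Coprime Q N := by
    rw [hQdef, resCard_eq]
    exact (Nat.Coprime.pow_left _ hN.symm)
  set r := orderOf ((Q : ℕ) : ZMod N) with hrdef
  have hQunit : IsUnit ((Q : ℕ) : ZMod N) := (ZMod.isUnit_iff_coprime Q N).mpr hQcop
  have hr : 0 < r := by
    have : IsOfFinOrder ((Q : ℕ) : ZMod N) := by
      rw [isOfFinOrder_iff_pow_eq_one]
      exact ⟨N.totient, Nat.totient_pos.mpr hNpos, by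
        have h0 := ZMod.pow_totient hQunit.unit
        have h2 := congrArg Units.val h0
        rw [Units.val_pow_eq_pow_val, IsUnit.unit_spec, Units.val_one] at h2
        exact h2⟩
    exact this.orderOf_pos
  have hpow_dvd : ∀ k : ℕ, ((Q : ℕ) : ZMod N) ^ k = 1 ↔ N ∣ Q ^ k - 1 := by
    intro k
    have h1 : 1 ≤ Q ^ k := Nat.one_le_pow _ _ (by have := two_le_resCard q E; omega)
    rw [← (ZMod.natCast_eq_zero_iff (Q ^ k - 1) N), Nat.cast_sub h1, Nat.cast_pow, Nat.cast_one,
      sub_eq_zero]
  -- `ζ ^ (Q ^ r) = ζ`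
  have hζQ : ζ ^ (Q ^ r) = ζ := by
    have h1 : 1 ≤ Q ^ r := Nat.one_le_pow _ _ (by have := two_le_resCard q E; omega)
    obtain ⟨t, ht⟩ := (hpow_dvd r).mp (pow_orderOf_eq_one _)
    have : Q ^ r = N * t + 1 := by omega
    rw [this, pow_succ, pow_mul, hζ.pow_eq_one, one_pow, one_mul]
  -- degree bound
  have hgal : Nat.card (L ≃ₐ[E] L) ≤ r := by
    refine card_gal_le_of_pow (padicVS q L) hO hNpos hζ hmO hr ?_
      (eq_one_of_apply_primitiveRoot E L N hζ)
    rw [hcardbot]; exact hζQ
  rw [IsGalois.card_aut_eq_finrank] at hgal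
  -- residue fields
  obtain ⟨k, hk, hcardk⟩ := card_residueField_tower q E L
  have hdvd := dvd_card_residueField_sub_one (padicVS q L) hNpos hζ hmO
  rw [hcardk] at hdvd
  have hrk : r ∣ k := orderOf_dvd_of_pow_eq_one ((hpow_dvd k).mpr hdvd)
  have hrk' : r ≤ k := Nat.le_of_dvd hk hrk
  have hfLk : resDeg q L = resDeg q E * k := by
    have h1 : q ^ resDeg q L = q ^ (resDeg q E * k) := by
      rw [← card_residueField_eq, hcardk, card_residueField_eq, pow_mul]
    exact Nat.pow_right_injective (Fact.out : q.Prime).two_le h1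
  -- ramification
  obtain ⟨ϖ, hϖ⟩ := IsDiscreteValuationRing.exists_irreducible (padicVS q E)
  obtain ⟨j, hj, hjL, hirr⟩ := ramIdx_tower q E L hϖ
  have hefL := ramIdx_mul_resDeg q L
  have hefE := ramIdx_mul_resDeg q E
  have htower : Module.finrank ℚ_[q] L = Module.finrank ℚ_[q] E * Module.finrank E L :=
    (Module.finrank_mul_finrank ℚ_[q] E L).symm
  have heE : 0 < ramIdx q E := ramIdx_pos q E
  have hfE : 0 < resDeg q E := resDeg_pos q E
  have hmain : ramIdx q E * resDeg q E * (j * k) =
      ramIdx q E * resDeg q E * Module.finrank E L := by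
    calc ramIdx q E * resDeg q E * (j * k)
        = (j * ramIdx q E) * (resDeg q E * k) := by ring
      _ = ramIdx q L * resDeg q L := by rw [hjL, hfLk]
      _ = Module.finrank ℚ_[q] L := hefL
      _ = Module.finrank ℚ_[q] E * Module.finrank E L := htower
      _ = ramIdx q E * resDeg q E * Module.finrank E L := by rw [hefE]
  have hjk : j * k = Module.finrank E L :=
    Nat.eq_of_mul_eq_mul_left (Nat.mul_pos heE hfE) hmain
  -- squeeze
  have h1 : k ≤ j * k := Nat.le_mul_of_pos_left k hj
  have hkr : k = r := le_antisymm (by omega) hrk'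
  have hd : Module.finrank E L = r := by omega
  have hj1 : j = 1 := by
    have : j * k = 1 * k := by omega
    exact Nat.eq_of_mul_eq_mul_right hk this
  refine ⟨hd, by rw [hjL, hj1, one_mul], (ϖ : E), (towerHom q E L ϖ).2, hirr hj1⟩

/-- **(U6)'** every uniformiser of `E` stays a uniformiser of `E(ζ_N)`, `N` prime to `q` -/
theorem cyclotomic_irreducible (hN : N.Coprime q) {ϖ : padicVS q E} (hϖ : Irreducible ϖ) :
    Irreducible (towerHom q E L ϖ) :=
  irreducible_towerHom_of_ramIdx_eq q E L (cyclotomic_unram q E L N hN).2.1 hϖ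

/-- **(U6)''** the residue degree of `E(ζ_N)`, `N` prime to `q` -/
theorem cyclotomic_resDeg (hN : N.Coprime q) :
    resDeg q L = resDeg q E * orderOf ((resCard q E : ℕ) : ZMod N) := by
  rw [resDeg_tower_of_ramIdx_eq q E L (cyclotomic_unram q E L N hN).2.1,
    (cyclotomic_unram q E L N hN).1]

end U6Main

end Fermat.Agent.GC.Local.Unram
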