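/-
GATE-C / C3-UNRAM (helper26), LOWERDATA, abstract tower form: for `q`-adic fields `K ⊆ L ⊆ Ω`
(abstract types) with `Ω = L(ζ)`, `ζ` of order `#κ_K ^ [L:K] - 1`:
* `Ω / L` is cyclic (unramified) and every uniformiser of `K` is a norm from `Ω` to `L`;
and for `K' = K(ζ)`, `ζ` of order `#κ_K ^ n - 1`:
* `K'/K` is cyclic of degree `n` and `π ^ j` is a norm from `K'` only if `n ∣ j`.
-/
import Mathlib
import Fermat.Agent.GC.Local.Unram.Cyclotomic
import Fermat.Agent.GC.Local.Unram.Main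

set_option autoImplicit false

open scoped Padic
open IsLocalRing

namespace Fermat.Agent.GC.Local.Unram

open Fermat.Agent.GC.Local

/-- the order of `Q` modulo `Q ^ n - 1` is `n` -/
theorem orderOf_natCast_pow_sub_one {Q n : ℕ} (hQ : 2 ≤ Q) (hn : 0 < n) :
    orderOf ((Q : ℕ) : ZMod (Q ^ n - 1)) = n := by
  set M := Q ^ n - 1 with hM
  have h1 : ∀ k, 1 ≤ Q ^ k := fun k => Nat.one_le_pow _ _ (by omega)
  have hpow : ∀ k : ℕ, ((Q : ℕ) : ZMod M) ^ k = 1 ↔ M ∣ Q ^ k - 1 := by
    intro k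
    rw [← (ZMod.natCast_eq_zero_iff (Q ^ k - 1) M), Nat.cast_sub (h1 k), Nat.cast_pow,
      Nat.cast_one, sub_eq_zero]
  have hn1 : ((Q : ℕ) : ZMod M) ^ n = 1 := (hpow n).mpr dvd_rfl
  have hdvd : orderOf ((Q : ℕ) : ZMod M) ∣ n := orderOf_dvd_of_pow_eq_one hn1
  have hpos : 0 < orderOf ((Q : ℕ) : ZMod M) := Nat.pos_of_dvd_of_pos hdvd hn
  refine le_antisymm (Nat.le_of_dvd hn hdvd) ?_
  by_contra hlt
  rw [not_le] at hlt
  have h2 := (hpow _).mp (pow_orderOf_eq_one ((Q : ℕ) : ZMod M))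
  set r := orderOf ((Q : ℕ) : ZMod M) with hr
  have h3 : Q ^ r < Q ^ n := Nat.pow_lt_pow_right (by omega) hlt
  have h4 : 2 ≤ Q ^ r := by
    calc 2 ≤ Q := hQ
      _ = Q ^ 1 := (pow_one Q).symm
      _ ≤ Q ^ r := Nat.pow_le_pow_right (by omega) hpos
  have h5 := Nat.le_of_dvd (by omega) h2
  omega

section Coprime

variable (q : ℕ) [Fact q.Prime] (E : Type*) [Field E] [Algebra ℚ_[q] E]
  [FiniteDimensional ℚ_[q] E]

/-- `#κ_E ^ n - 1` is prime to `q` -/
theorem coprime_resCard_pow_sub_one (n : ℕ) (hn : 0 < n) :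
    Nat.Coprime (resCard q E ^ n - 1) q := by
  have hq : q.Prime := Fact.out
  refine Nat.Coprime.symm ((Nat.Prime.coprime_iff_not_dvd hq).mpr fun h => ?_)
  have h1 : q ∣ resCard q E ^ n := by
    rw [resCard_eq, ← pow_mul]
    exact dvd_pow_self q (Nat.mul_pos (resDeg_pos q E) hn).ne'
  have h2 : 1 ≤ resCard q E ^ n := Nat.one_le_pow _ _ (by have := two_le_resCard q E; omega)
  have h3 := Nat.dvd_sub h1 h
  have h4 : resCard q E ^ n - (resCard q E ^ n - 1) = 1 := by omega
  rw [h4] at h3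
  exact hq.one_lt.ne' (Nat.dvd_one.mp h3)

theorem neZero_resCard_pow_sub_one (n : ℕ) (hn : 0 < n) : NeZero (resCard q E ^ n - 1) := by
  have h2 := two_le_resCard q E
  have h3 : 2 ^ n ≤ resCard q E ^ n := Nat.pow_le_pow_left h2 n
  have h4 : 2 ≤ 2 ^ n := by
    calc 2 = 2 ^ 1 := (pow_one 2).symm
      _ ≤ 2 ^ n := Nat.pow_le_pow_right (by norm_num) hn
  exact ⟨by omega⟩

end Coprime

section TowerData

variable (q : ℕ) [Fact q.Prime] (E L : Type*) [Field E] [Field L] [Algebra ℚ_[q] E]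
  [Algebra ℚ_[q] L] [Algebra E L] [IsScalarTower ℚ_[q] E L] [FiniteDimensional ℚ_[q] E]
  [FiniteDimensional ℚ_[q] L]

/-- `π_E = v · π_L ^ j`, `#κ_L = #κ_E ^ k`, `j · k = [L : E]`. -/
theorem tower_data {ϖ : padicVS q E} (hϖ : Irreducible ϖ) {ϖL : padicVS q L}
    (hϖL : Irreducible ϖL) :
    ∃ (j k : ℕ) (v : (padicVS q L)ˣ), towerHom q E L ϖ = v * ϖL ^ j ∧
      resCard q L = resCard q E ^ k ∧ j * k = Module.finrank E L := by
  have hdE := padicVS_isDiscreteValuationRing q E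
  have hdL := padicVS_isDiscreteValuationRing q L
  -- `q = unit * ϖ ^ e` in `O_E`
  have h1 := span_primeElt_eq q E
  rw [hϖ.maximalIdeal_eq, Ideal.span_singleton_pow,
    Ideal.span_singleton_eq_span_singleton] at h1
  obtain ⟨u, hu⟩ := h1
  have h2 : primeElt q L * towerHom q E L u = (towerHom q E L ϖ) ^ ramIdx q E := by
    rw [← towerHom_primeElt q E L, ← map_mul, hu, map_pow]
  have hx0 : towerHom q E L ϖ ≠ 0 := by
    intro h0
    exact hϖ.ne_zero (towerHom_injective q E L (by rw [h0, map_zero]))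
  obtain ⟨j, v, hv⟩ := IsDiscreteValuationRing.eq_unit_mul_pow_irreducible hx0 hϖL
  have hjL : ramIdx q L = j * ramIdx q E := by
    symm
    apply ramIdx_eq_of_span_eq
    rw [hϖL.maximalIdeal_eq, Ideal.span_singleton_pow, Ideal.span_singleton_eq_span_singleton]
    have hunit : IsUnit (towerHom q E L u) := (u.isUnit).map _
    have : primeElt q L * (towerHom q E L u * ((v⁻¹ : (padicVS q L)ˣ) : padicVS q L) ^ ramIdx q E)
        = ϖL ^ (j * ramIdx q E) := by
      rw [← mul_assoc, h2, hv, mul_pow, ← pow_mul, mul_comm (_ ^ _) (ϖL ^ _), mul_assoc, ← mul_pow,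
        Units.mul_inv, one_pow, mul_one]
    exact ⟨(hunit.mul ((v⁻¹).isUnit.pow _)).unit, this⟩
  obtain ⟨k, hk, hcardk⟩ := card_residueField_tower q E L
  have hfLk : resDeg q L = resDeg q E * k := by
    have h1 : q ^ resDeg q L = q ^ (resDeg q E * k) := by
      rw [← card_residueField_eq, hcardk, card_residueField_eq, pow_mul]
    exact Nat.pow_right_injective (Fact.out : q.Prime).two_le h1
  have hefL := ramIdx_mul_resDeg q L
  have hefE := ramIdx_mul_resDeg q E
  have htower : Module.finrank ℚ_[q] L = Module.finrank ℚ_[q] E * Module.finrank E L :=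
    (Module.finrank_mul_finrank ℚ_[q] E L).symm
  have heE : 0 < ramIdx q E := ramIdx_pos q E
  have hfE : 0 < resDeg q E := resDeg_pos q E
  have hmain : ramIdx q E * resDeg q E * (j * k) =
      ramIdx q E * resDeg q E * Module.finrank E L := by
    calc ramIdx q E * resDeg q E * (j * k)
        = (j * ramIdx q E) * (resDeg q E * k) := by ring
      _ = ramIdx q L * resDeg q L := by rw [hjL, hfLk]
      _ = Module.finrank ℚ_[q] L := hefL
      _ = Module.finrank ℚ_[q] E * Module.finrank E L := htower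
      _ = ramIdx q E * resDeg q E * Module.finrank E L := by rw [hefE]
  exact ⟨j, k, v, hv, hcardk, Nat.eq_of_mul_eq_mul_left (Nat.mul_pos heE hfE) hmain⟩

end TowerData

section Bot

variable (q : ℕ) [Fact q.Prime] (K K' : Type*) [Field K] [Field K'] [Algebra ℚ_[q] K]
  [Algebra ℚ_[q] K'] [Algebra K K'] [IsScalarTower ℚ_[q] K K'] [FiniteDimensional ℚ_[q] K]
  [FiniteDimensional ℚ_[q] K']

/-- **bottom layer**: `K' = K(ζ)`, `ζ` of order `#κ_K ^ n - 1`, is cyclic of degree `n` over `K`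
and `π ^ j` (`π` a uniformiser of `K`) is a norm from `K'` only if `n ∣ j`. -/
theorem lower_bot (n : ℕ) (hn : 0 < n) [IsCyclotomicExtension {resCard q K ^ n - 1} K K'] :
    Module.finrank K K' = n ∧ IsCyclic (K' ≃ₐ[K] K') ∧
      ∀ π : padicVS q K, Irreducible π → ∀ j : ℕ,
        (∃ y : K', Algebra.norm K y = (π : K) ^ j) → n ∣ j := by
  have := neZero_resCard_pow_sub_one q K n hn
  have hcop := coprime_resCard_pow_sub_one q K n hn
  have hGal : IsGalois K K' := IsCyclotomicExtension.isGalois {resCard q K ^ n - 1} K K'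
  have hfd : FiniteDimensional K K' :=
    IsCyclotomicExtension.finiteDimensional {resCard q K ^ n - 1} K K'
  have := padicVS_isDiscreteValuationRing q K'
  have := padicVS_finite_residueField q K'
  have := padicVS_isAdicComplete q K'
  have hO : ∀ (σ : K' ≃ₐ[K] K') (x : K'), x ∈ padicVS q K' → σ x ∈ padicVS q K' :=
    fun σ x hx => padicVS_galStable q K' K σ x hx
  obtain ⟨hdeg, -, hu⟩ := cyclotomic_unram q K K' (resCard q K ^ n - 1) hcop
  rw [orderOf_natCast_pow_sub_one (two_le_resCard q K) hn] at hdeg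
  refine ⟨hdeg, isCyclic_gal (padicVS q K') hO hu, fun π hπ j hj => ?_⟩
  have hirr := cyclotomic_irreducible q K K' (resCard q K ^ n - 1) hcop hπ
  have h1 : algebraMap K K' (1 : K) ∈ padicVS q K' := by rw [map_one]; exact one_mem _
  have h1' : algebraMap K K' (1 : K)⁻¹ ∈ padicVS q K' := by rw [inv_one, map_one]; exact one_mem _
  have key := (mem_norm_range_iff_of_isUnram (padicVS q K') hO hu (π : K)
    (towerHom q K K' π).2 hirr (j : ℤ) 1 one_ne_zero h1 h1').mp
    (by obtain ⟨y, hy⟩ := hj; exact ⟨y, by rw [hy, zpow_natCast, mul_one]⟩)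
  rw [hdeg] at key
  exact_mod_cast key

end Bot

section Top

variable (q : ℕ) [Fact q.Prime] (K L Ω : Type*) [Field K] [Field L] [Field Ω] [Algebra ℚ_[q] K]
  [Algebra ℚ_[q] L] [Algebra ℚ_[q] Ω] [Algebra K L] [Algebra L Ω] [IsScalarTower ℚ_[q] K L]
  [IsScalarTower ℚ_[q] L Ω] [FiniteDimensional ℚ_[q] K] [FiniteDimensional ℚ_[q] L]
  [FiniteDimensional ℚ_[q] Ω]

/-- **top layer**: `Ω = L(ζ)`, `ζ` of order `#κ_K ^ [L:K] - 1`, is cyclic over `L` and every
uniformiser of `K` is a norm from `Ω` to `L`. -/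
theorem lower_top [IsCyclotomicExtension {resCard q K ^ Module.finrank K L - 1} L Ω] :
    IsCyclic (Ω ≃ₐ[L] Ω) ∧
      ∀ π : padicVS q K, Irreducible π → ∃ y : Ω, Algebra.norm L y = algebraMap K L (π : K) := by
  have hfdKL : FiniteDimensional K L := FiniteDimensional.right ℚ_[q] K L
  have hn : 0 < Module.finrank K L := Module.finrank_pos
  set n := Module.finrank K L with hndef
  set M := resCard q K ^ n - 1 with hMdef
  have : NeZero M := neZero_resCard_pow_sub_one q K n hn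
  have hcop : Nat.Coprime M q := coprime_resCard_pow_sub_one q K n hn
  have hGal : IsGalois L Ω := IsCyclotomicExtension.isGalois {M} L Ω
  have hfd : FiniteDimensional L Ω := IsCyclotomicExtension.finiteDimensional {M} L Ω
  have := padicVS_isDiscreteValuationRing q Ω
  have := padicVS_finite_residueField q Ω
  have := padicVS_isAdicComplete q Ω
  have hdL := padicVS_isDiscreteValuationRing q L
  have hO : ∀ (σ : Ω ≃ₐ[L] Ω) (x : Ω), x ∈ padicVS q Ω → σ x ∈ padicVS q Ω :=
    fun σ x hx => padicVS_galStable q Ω L σ x hx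
  obtain ⟨hdeg, -, hu⟩ := cyclotomic_unram q L Ω M hcop
  refine ⟨isCyclic_gal (padicVS q Ω) hO hu, fun π hπ => ?_⟩
  obtain ⟨ϖL, hϖL⟩ := IsDiscreteValuationRing.exists_irreducible (padicVS q L)
  obtain ⟨j, k, v, hv, hcard, hjk⟩ := tower_data q K L hπ hϖL
  have hirr := cyclotomic_irreducible q L Ω M hcop hϖL
  -- `[Ω : L] ∣ j`
  have hdvd : Module.finrank L Ω ∣ j := by
    rw [hdeg]
    apply orderOf_dvd_of_pow_eq_one
    rw [hcard, Nat.cast_pow, ← pow_mul, mul_comm, hjk, ← Nat.cast_pow]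
    have h1 : 1 ≤ resCard q K ^ n := Nat.one_le_pow _ _ (by have := two_le_resCard q K; omega)
    have h2 : ((resCard q K ^ n - 1 : ℕ) : ZMod M) = 0 := (ZMod.natCast_eq_zero_iff _ _).mpr dvd_rfl
    rw [Nat.cast_sub h1, Nat.cast_one, sub_eq_zero] at h2
    exact h2
  -- the unit
  have hv0 : ((v : padicVS q L) : L) ≠ 0 := fun h0 => v.ne_zero (Subtype.ext h0)
  have hv1 : algebraMap L Ω ((v : padicVS q L) : L) ∈ padicVS q Ω :=
    (towerHom q L Ω (v : padicVS q L)).2
  have hv2 : algebraMap L Ω (((v : padicVS q L) : L))⁻¹ ∈ padicVS q Ω := by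
    have : (((v : padicVS q L) : L))⁻¹ = (((v⁻¹ : (padicVS q L)ˣ) : padicVS q L) : L) := by
      apply inv_eq_of_mul_eq_one_right
      rw [← MulMemClass.coe_mul, Units.mul_inv]; rfl
    rw [this]
    exact (towerHom q L Ω ((v⁻¹ : (padicVS q L)ˣ) : padicVS q L)).2
  obtain ⟨y, hy⟩ := (mem_norm_range_iff_of_isUnram (padicVS q Ω) hO hu (ϖL : L)
    (towerHom q L Ω ϖL).2 hirr (j : ℤ) ((v : padicVS q L) : L) hv0 hv1 hv2).mpr
    (by exact_mod_cast hdvd)
  refine ⟨y, ?_⟩
  rw [hy, zpow_natCast]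
  have := congrArg (fun x : padicVS q L => (x : L)) hv
  simp only [towerHom_coe, MulMemClass.coe_mul, SubmonoidClass.coe_pow] at this
  rw [this, mul_comm]

end Top

end Fermat.Agent.GC.Local.Unram
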