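/-
GATE-C / C3-UNRAM (helper26), LOWERDATA, field-theoretic bookkeeping: for `q`-adic fields
`K ⊆ L` (finite Galois) and `Ω = L(ζ)`, `ζ` of order `#κ_K ^ [L:K] - 1`, the data
`(Ω, H = Gal(Ω/L), N = Gal(Ω/K(ζ)), π)` required by `InvMain.LowerData`.
-/
import Mathlib
import Fermat.Agent.GC.Local.Unram.LowerAbs

set_option autoImplicit false

open scoped Padic
open IsLocalRing IntermediateField

namespace Fermat.Agent.GC.Local.Unram

open Fermat.Agent.GC.Local

section Generic

/-- a cyclotomic extension stays cyclotomic over any base whose image contains the old one -/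
theorem isCyclotomicExtension_of_range_le (S : Set ℕ) (A A' B : Type*) [CommRing A]
    [CommRing A'] [CommRing B] [Algebra A B] [Algebra A' B]
    (h : ∀ a : A, ∃ a' : A', algebraMap A' B a' = algebraMap A B a)
    [hc : IsCyclotomicExtension S A B] : IsCyclotomicExtension S A' B where
  exists_isPrimitiveRoot := hc.exists_isPrimitiveRoot
  adjoin_roots x := by
    have hx := hc.adjoin_roots x
    induction hx using Algebra.adjoin_induction with
    | mem y hy => exact Algebra.subset_adjoin hy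
    | algebraMap a =>
      obtain ⟨a', ha'⟩ := h a
      rw [← ha']
      exact Subalgebra.algebraMap_mem _ _
    | add y z _ _ hy hz => exact Subalgebra.add_mem _ hy hz
    | mul y z _ _ hy hz => exact Subalgebra.mul_mem _ hy hz

variable (K L Ω : Type*) [Field K] [Field L] [Field Ω] [Algebra K L] [Algebra L Ω] [Algebra K Ω]
  [IsScalarTower K L Ω] [FiniteDimensional K L] [IsGalois K L] [CharZero K]
  (M : ℕ) [NeZero M] [IsCyclotomicExtension {M} L Ω]

omit [IsGalois K L] [CharZero K] [NeZero M] in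
include L M in
theorem finiteDimensional_of_cyclotomic_tower : FiniteDimensional K Ω := by
  have : FiniteDimensional L Ω := IsCyclotomicExtension.finiteDimensional {M} L Ω
  exact FiniteDimensional.trans K L Ω

omit [FiniteDimensional K L] [IsGalois K L] [CharZero K] in
/-- the image of `L` and `K(ζ)` generate `Ω = L(ζ)` -/
theorem fieldRange_sup_adjoin_eq_top {ζ : Ω} (hζ : IsPrimitiveRoot ζ M) :
    (IsScalarTower.toAlgHom K L Ω).fieldRange ⊔ K⟮ζ⟯ = ⊤ := by
  rw [eq_top_iff]
  intro x hx'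
  clear hx'
  have hx : x ∈ Algebra.adjoin L {ζ} := by
    rw [IsCyclotomicExtension.adjoin_primitive_root_eq_top (A := L) (B := Ω) hζ]
    exact Algebra.mem_top
  induction hx using Algebra.adjoin_induction with
  | mem y hy =>
    rw [Set.mem_singleton_iff] at hy
    subst hy
    exact (le_sup_right : K⟮y⟯ ≤ _) (mem_adjoin_simple_self K y)
  | algebraMap a =>
    exact (le_sup_left : (IsScalarTower.toAlgHom K L Ω).fieldRange ≤ _) ⟨a, rfl⟩
  | add y z _ _ hy hz => exact add_mem hy hz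
  | mul y z _ _ hy hz => exact mul_mem hy hz

include L M in
/-- `Ω = L(ζ)` is Galois over `K` when `L/K` is -/
theorem isGalois_of_cyclotomic_tower : IsGalois K Ω := by
  have hfd : FiniteDimensional K Ω := finiteDimensional_of_cyclotomic_tower K L Ω M
  have hζ := IsCyclotomicExtension.zeta_spec M L Ω
  set ζ := IsCyclotomicExtension.zeta M L Ω
  have h1 : IsCyclotomicExtension {M} K K⟮ζ⟯ := hζ.intermediateField_adjoin_isCyclotomicExtension K
  have h2 : IsGalois K K⟮ζ⟯ := IsCyclotomicExtension.isGalois {M} K K⟮ζ⟯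
  have h3 : IsGalois K (IsScalarTower.toAlgHom K L Ω).fieldRange :=
    IsGalois.of_algEquiv (AlgEquiv.ofInjectiveField (IsScalarTower.toAlgHom K L Ω))
  have h4 : Normal K ((IsScalarTower.toAlgHom K L Ω).fieldRange ⊔ K⟮ζ⟯ :
      IntermediateField K Ω) := inferInstance
  rw [fieldRange_sup_adjoin_eq_top K L Ω M hζ] at h4
  have h5 : Normal K Ω := Normal.of_algEquiv (topEquiv : (⊤ : IntermediateField K Ω) ≃ₐ[K] Ω)
  exact ⟨⟩

end Generic

section Inter

variable (q : ℕ) [Fact q.Prime] (K Ω : Type*) [Field K] [Field Ω]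
  [Algebra ℚ_[q] K] [Algebra ℚ_[q] Ω] [Algebra K Ω] [IsScalarTower ℚ_[q] K Ω]
  [FiniteDimensional ℚ_[q] K] [FiniteDimensional ℚ_[q] Ω] (F' : IntermediateField K Ω)

omit [FiniteDimensional ℚ_[q] K] [FiniteDimensional ℚ_[q] Ω] in
theorem isScalarTower_padic_inter : IsScalarTower ℚ_[q] F' Ω :=
  IsScalarTower.of_algebraMap_eq fun _ => rfl

omit [FiniteDimensional ℚ_[q] K] in
theorem finiteDimensional_padic_inter : FiniteDimensional ℚ_[q] F' := by
  have := isScalarTower_padic_inter q K Ω F'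
  exact FiniteDimensional.left ℚ_[q] F' Ω

/-- **bottom layer**, intermediate-field form -/
theorem lower_bot_inter (n : ℕ) (hn : 0 < n)
    [IsCyclotomicExtension {resCard q K ^ n - 1} K F'] :
    Module.finrank K F' = n ∧ IsCyclic (F' ≃ₐ[K] F') ∧
      ∀ π : padicVS q K, Irreducible π → ∀ j : ℕ,
        (∃ y : F', Algebra.norm K y = (π : K) ^ j) → n ∣ j := by
  have := finiteDimensional_padic_inter q K Ω F'
  exact lower_bot q K F' n hn

/-- **top layer**, intermediate-field form -/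
theorem lower_top_inter (L : Type*) [Field L] [Algebra K L] [Algebra L Ω]
    (hF' : ∀ l : L, algebraMap L Ω l ∈ F') (hfin : Module.finrank K F' = Module.finrank K L)
    [hc : IsCyclotomicExtension {resCard q K ^ Module.finrank K L - 1} L Ω] :
    IsCyclic (Ω ≃ₐ[F'] Ω) ∧
      ∀ π : padicVS q K, Irreducible π →
        ∃ y : Ω, Algebra.norm F' y = algebraMap K F' (π : K) := by
  have := isScalarTower_padic_inter q K Ω F'
  have := finiteDimensional_padic_inter q K Ω F'
  have hc' : IsCyclotomicExtension {resCard q K ^ Module.finrank K F' - 1} F' Ω := by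
    rw [hfin]
    exact isCyclotomicExtension_of_range_le _ L F' Ω fun l => ⟨⟨algebraMap L Ω l, hF' l⟩, rfl⟩
  exact lower_top q K F' Ω

end Inter

section Main

variable (q : ℕ) [Fact q.Prime] (K L Ω : Type*) [Field K] [Field L] [Field Ω]
  [Algebra ℚ_[q] K] [Algebra ℚ_[q] L] [Algebra ℚ_[q] Ω] [Algebra K L] [Algebra L Ω] [Algebra K Ω]
  [IsScalarTower ℚ_[q] K L] [IsScalarTower K L Ω] [IsScalarTower ℚ_[q] K Ω]
  [FiniteDimensional ℚ_[q] K] [FiniteDimensional ℚ_[q] L] [FiniteDimensional K L] [IsGalois K L]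
  [IsCyclotomicExtension {resCard q K ^ Module.finrank K L - 1} L Ω]

omit [Algebra ℚ_[q] L] [IsScalarTower ℚ_[q] K L] [FiniteDimensional ℚ_[q] L] in
include q in
/-- the data of `InvMain.LowerData` for a fixed `Ω = L(ζ)`, `ζ` of order `#κ_K ^ [L:K] - 1`. -/
theorem lowerData_of_cyclotomic :
    ∃ (_ : FiniteDimensional K Ω) (_ : IsGalois K Ω)
      (H N : Subgroup (Ω ≃ₐ[K] Ω)) (_ : H.Normal) (_ : N.Normal) (_ : IsCyclic H)
      (_ : IsCyclic ((Ω ≃ₐ[K] Ω) ⧸ N)) (π : Kˣ),
      Nonempty (L ≃ₐ[K] fixedField H) ∧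
      Nat.card ((Ω ≃ₐ[K] Ω) ⧸ N) = Module.finrank K L ∧
      (∃ y : Ω, Algebra.norm (fixedField H) y = algebraMap K (fixedField H) π) ∧
      (∀ j : ℕ, (∃ y : fixedField N, Algebra.norm K y = (π : K) ^ j) →
        Nat.card ((Ω ≃ₐ[K] Ω) ⧸ N) ∣ j) := by
  have hcz : CharZero K := charZero_of_padic q K
  have hnpos : 0 < Module.finrank K L := Module.finrank_pos
  have hne : NeZero (resCard q K ^ Module.finrank K L - 1) :=
    neZero_resCard_pow_sub_one q K _ hnpos
  have hfd : FiniteDimensional K Ω :=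
    finiteDimensional_of_cyclotomic_tower K L Ω (resCard q K ^ Module.finrank K L - 1)
  have hgal : IsGalois K Ω :=
    isGalois_of_cyclotomic_tower K L Ω (resCard q K ^ Module.finrank K L - 1)
  have hfdΩ : FiniteDimensional ℚ_[q] Ω := FiniteDimensional.trans ℚ_[q] K Ω
  refine ⟨hfd, hgal, ?_⟩
  -- the two intermediate fields
  have hζ := IsCyclotomicExtension.zeta_spec (resCard q K ^ Module.finrank K L - 1) L Ω
  set ζ := IsCyclotomicExtension.zeta (resCard q K ^ Module.finrank K L - 1) L Ω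
  have h1 : IsCyclotomicExtension {resCard q K ^ Module.finrank K L - 1} K K⟮ζ⟯ :=
    hζ.intermediateField_adjoin_isCyclotomicExtension K
  have h2 : IsGalois K K⟮ζ⟯ :=
    IsCyclotomicExtension.isGalois {resCard q K ^ Module.finrank K L - 1} K K⟮ζ⟯
  have h3 : IsGalois K (IsScalarTower.toAlgHom K L Ω).fieldRange :=
    IsGalois.of_algEquiv (AlgEquiv.ofInjectiveField (IsScalarTower.toAlgHom K L Ω))
  have hHn : (IsScalarTower.toAlgHom K L Ω).fieldRange.fixingSubgroup.Normal := inferInstance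
  have hNn : (K⟮ζ⟯).fixingSubgroup.Normal := inferInstance
  have hEfix : fixedField (IsScalarTower.toAlgHom K L Ω).fieldRange.fixingSubgroup =
      (IsScalarTower.toAlgHom K L Ω).fieldRange := IsGalois.fixedField_fixingSubgroup _
  have hFfix : fixedField (K⟮ζ⟯).fixingSubgroup = K⟮ζ⟯ := IsGalois.fixedField_fixingSubgroup _
  -- uniformiser of `K`
  have hdK := padicVS_isDiscreteValuationRing q K
  obtain ⟨ϖ, hϖ⟩ := IsDiscreteValuationRing.exists_irreducible (padicVS q K)
  have hϖ0 : (ϖ : K) ≠ 0 := fun h0 => hϖ.ne_zero (Subtype.ext h0)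
  -- the isomorphism `L ≃ fixedField H`
  let e : L ≃ₐ[K] fixedField (IsScalarTower.toAlgHom K L Ω).fieldRange.fixingSubgroup :=
    (AlgEquiv.ofInjectiveField (IsScalarTower.toAlgHom K L Ω)).trans
      (IntermediateField.equivOfEq hEfix.symm)
  -- bottom layer
  have h1' : IsCyclotomicExtension {resCard q K ^ Module.finrank K L - 1} K
      (fixedField (K⟮ζ⟯).fixingSubgroup) := hFfix.symm ▸ h1
  obtain ⟨hb1, hb2, hb3⟩ := lower_bot_inter q K Ω (fixedField (K⟮ζ⟯).fixingSubgroup)
    (Module.finrank K L) hnpos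
  -- top layer
  have hmem : ∀ l : L, algebraMap L Ω l ∈
      fixedField (IsScalarTower.toAlgHom K L Ω).fieldRange.fixingSubgroup := by
    intro l
    rw [hEfix]
    exact ⟨l, rfl⟩
  obtain ⟨ht1, ht2⟩ := lower_top_inter q K Ω
    (fixedField (IsScalarTower.toAlgHom K L Ω).fieldRange.fixingSubgroup) L hmem
    e.toLinearEquiv.finrank_eq.symm
  have hcardN : Nat.card ((Ω ≃ₐ[K] Ω) ⧸ (K⟮ζ⟯).fixingSubgroup) = Module.finrank K L := by
    rw [Nat.card_congr (IsGalois.normalAutEquivQuotient (K⟮ζ⟯).fixingSubgroup).toEquiv,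
      IsGalois.card_aut_eq_finrank, hb1]
  refine ⟨(IsScalarTower.toAlgHom K L Ω).fieldRange.fixingSubgroup, (K⟮ζ⟯).fixingSubgroup,
    hHn, hNn, ?_, ?_, Units.mk0 (ϖ : K) hϖ0, ⟨e⟩, hcardN, ?_, ?_⟩
  · exact (IntermediateField.subgroupEquivAlgEquiv _).isCyclic.mpr ht1
  · exact (IsGalois.normalAutEquivQuotient (K⟮ζ⟯).fixingSubgroup).isCyclic.mpr hb2
  · exact ht2 ϖ hϖ
  · intro j hj
    rw [hcardN]
    exact hb3 ϖ hϖ j hj

end Main

end Fermat.Agent.GC.Local.Unram
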