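/-
GATE-C / C3-UNRAM (helper26): **`lowerData`** — the field-theoretic input `InvMain.LowerData K L`
of the local class-formation axiom (helper3's `InvMain.card_H2_eq_finrank`, `isAddCyclic_H2`),
for every finite Galois extension `L/K` of `q`-adic fields.
`Ω := CyclotomicField (#κ_K ^ [L:K] - 1) L`.
-/
import Mathlib
import Fermat.Agent.GC.Local.Unram.LowerCore
import Fermat.Agent.GC.Local.InvMain

set_option autoImplicit false

open scoped Padic
open IntermediateField

namespace Fermat.Agent.GC.Local.Unram

open Fermat.Agent.GC.Local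

section

variable (q : ℕ) [Fact q.Prime] (K L : Type) [Field K] [Field L]
  [Algebra ℚ_[q] K] [Algebra ℚ_[q] L] [Algebra K L] [IsScalarTower ℚ_[q] K L]
  [FiniteDimensional ℚ_[q] L] [FiniteDimensional K L] [IsGalois K L]

include q

/-- **LowerData** holds for every finite Galois extension of `q`-adic fields. -/
theorem lowerData : InvMain.LowerData K L := by
  have hfdK : FiniteDimensional ℚ_[q] K := FiniteDimensional.left ℚ_[q] K L
  have hczL : CharZero L := charZero_of_padic q L
  have hnpos : 0 < Module.finrank K L := Module.finrank_pos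
  have hne : NeZero (resCard q K ^ Module.finrank K L - 1) :=
    neZero_resCard_pow_sub_one q K _ hnpos
  have hcyc : IsCyclotomicExtension {resCard q K ^ Module.finrank K L - 1} L
      (CyclotomicField (resCard q K ^ Module.finrank K L - 1) L) :=
    CyclotomicField.isCyclotomicExtension _ L
  have htow : IsScalarTower ℚ_[q] K (CyclotomicField (resCard q K ^ Module.finrank K L - 1) L) := by
    refine IsScalarTower.of_algebraMap_eq fun x => ?_
    rw [IsScalarTower.algebraMap_apply ℚ_[q] L (CyclotomicField _ L),
      IsScalarTower.algebraMap_apply ℚ_[q] K L,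
      ← IsScalarTower.algebraMap_apply K L (CyclotomicField _ L)]
  obtain ⟨h1, h2, H, N, h3, h4, h5, h6, π, h7⟩ := lowerData_of_cyclotomic q K L
    (CyclotomicField (resCard q K ^ Module.finrank K L - 1) L)
  exact ⟨CyclotomicField (resCard q K ^ Module.finrank K L - 1) L, inferInstance, inferInstance,
    h1, h2, H, N, h3, h4, h5, h6, π, h7⟩

/-- **Local class-formation axiom, UNCONDITIONAL**: `|H²(Gal(L/K), Lˣ)| = [L:K]`. -/
theorem local_card_H2_eq_finrank :
    Nat.card (groupCohomology.H2 (Rep.ofAlgebraAutOnUnits K L)) = Module.finrank K L :=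
  InvMain.card_H2_eq_finrank q K L (lowerData q K L)

/-- **Local class-formation axiom, UNCONDITIONAL**: `H²(Gal(L/K), Lˣ)` is cyclic. -/
theorem local_isAddCyclic_H2 :
    IsAddCyclic (groupCohomology.H2 (Rep.ofAlgebraAutOnUnits K L)) :=
  InvMain.isAddCyclic_H2 q K L (lowerData q K L)

/-- a class of exact order `[L:K]` in `H²(Gal(L/K), Lˣ)` (the shape of helper67's `LowerInput`) -/
theorem local_exists_class_addOrderOf :
    ∃ u : groupCohomology.H2 (Rep.ofAlgebraAutOnUnits K L),
      addOrderOf u = Module.finrank K L := by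
  obtain ⟨y, hy⟩ := InvMain.exists_class_of_lowerData (lowerData q K L)
  refine ⟨y, Nat.dvd_antisymm ?_ (hy _ (addOrderOf_nsmul_eq_zero y))⟩
  rw [← local_card_H2_eq_finrank q K L]
  have : Finite (groupCohomology.H2 (Rep.ofAlgebraAutOnUnits K L)) :=
    (Herbrand.card_H2_dvd_finrank q K L).1
  exact addOrderOf_dvd_natCard y

end

end Fermat.Agent.GC.Local.Unram
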