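/-
GATE-C / C3 (helper26): UNCONDITIONAL wrappers.  `lowerData` (Unram/LowerData.lean) discharges the
hypothesis `LowerDataAll q` of helper3's `ClassModuleLocal.lean` and of helper67's
`Herbrand/ClassModFinal.lean`: for every finite Galois extension `L/K` of `q`-adic fields and every
subgroup `H ≤ Gal(L/K)`:  `|H²(H, Lˣ)| = |H|`, `Lˣ` is a class module, `H³(H, Lˣ) = 0`.
-/
import Mathlib
import Fermat.Agent.GC.Local.Unram.LowerData
import Fermat.Agent.GC.Local.ClassModuleLocal
import Fermat.Agent.GC.Local.Herbrand.ClassModFinal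

set_option autoImplicit false

open scoped Padic
open CategoryTheory groupCohomology

namespace Fermat.Agent.GC.Local.Unram

open Fermat.Agent.GC.Local

/-- helper3's `ClassModuleLocal.LowerDataAll q` holds. -/
theorem lowerDataAll (q : ℕ) [Fact q.Prime] : ClassModuleLocal.LowerDataAll q :=
  fun K L _ _ _ _ _ _ _ _ _ => lowerData q K L

/-- helper67's `Herbrand.LowerDataAll q` holds. -/
theorem lowerDataAll_herbrand (q : ℕ) [Fact q.Prime] : Herbrand.LowerDataAll q :=
  fun K L _ _ _ _ _ _ _ _ _ => lowerData q K L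

/-- helper67's `Herbrand.LowerInput q` holds. -/
theorem lowerInput (q : ℕ) [Fact q.Prime] : Herbrand.LowerInput q :=
  Herbrand.lowerInput_of_lowerDataAll (lowerDataAll_herbrand q)

section

variable (q : ℕ) [Fact q.Prime] (K L : Type) [Field K] [Field L]
  [Algebra ℚ_[q] K] [Algebra ℚ_[q] L] [Algebra K L] [IsScalarTower ℚ_[q] K L]
  [FiniteDimensional ℚ_[q] L] [FiniteDimensional K L] [IsGalois K L]

include q

/-- `|H²(H, Lˣ)| = |H|` for every subgroup `H ≤ Gal(L/K)`, UNCONDITIONAL. -/
theorem local_card_H2_res (H : Subgroup (L ≃ₐ[K] L)) :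
    Nat.card (H2 (Rep.res H.subtype (Rep.ofAlgebraAutOnUnits K L))) = Nat.card H :=
  ClassModuleLocal.card_H2_res q (lowerDataAll q) K L H

/-- a fundamental class, UNCONDITIONAL. -/
theorem local_exists_fundamental :
    ∃ u : H2 (Rep.ofAlgebraAutOnUnits K L), ∀ j : ℕ, j • u = 0 → Module.finrank K L ∣ j :=
  ClassModuleLocal.exists_fundamental q (lowerDataAll q) K L

/-- **`Lˣ` is a class module** for `Gal(L/K)`, UNCONDITIONAL (helper3's construction). -/
noncomputable def localClassModuleU : Fermat.Agent.GC.Tate.ClassModule (L ≃ₐ[K] L) :=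
  ClassModuleLocal.localClassModule q (lowerDataAll q) K L

/-- **local `H³ = 0`**, UNCONDITIONAL: `H³(H, Lˣ) = 0` for every subgroup `H ≤ Gal(L/K)`. -/
theorem local_H3_isZero (H : Subgroup (L ≃ₐ[K] L)) :
    Limits.IsZero (groupCohomology (Rep.res H.subtype (Rep.ofAlgebraAutOnUnits K L)) 3) :=
  ClassModuleLocal.isZero_H3_res q (lowerDataAll q) K L H

end

end Fermat.Agent.GC.Local.Unram
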