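/-
GATE-C / C3-UNRAM (helper26).  Final statements in the shapes of `GC/Local/Skeleton.lean`
(helper3): `E/F` finite Galois, `O` a Galois-stable valuation subring of `E`, complete DVR with
finite residue field, UNRAMIFIED (some element of `F` is a uniformiser of `O`).

* `exists_frobenius`      (U1)  Gal(E/F) is cyclic, generated by a Frobenius
* `inertia_trivial`, `card_residueField`, `isCyclic_gal`
* `norm_surjective_on_units`  (U2)
* `units_coboundary`      (U2')  `H¹(Gal, O^×) = 0` in cocycle form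
* `mem_norm_range_iff_of_isUnram` (U3)  `c^k u` is a norm iff `[E:F] ∣ k`
-/
import Mathlib
import Fermat.Agent.GC.Local.Unram.Field

set_option autoImplicit false

open IsLocalRing

namespace Fermat.Agent.GC.Local.Unram

variable {F E : Type*} [Field F] [Field E] [Algebra F E] [FiniteDimensional F E] [IsGalois F E]
  (O : ValuationSubring E) [IsDiscreteValuationRing O] [Finite (IsLocalRing.ResidueField O)]
  [IsAdicComplete (IsLocalRing.maximalIdeal O) O]
  (hO : ∀ (σ : E ≃ₐ[F] E) (x : E), x ∈ O → σ x ∈ O)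
  (hu : ∃ c : F, ∃ h : algebraMap F E c ∈ O, Irreducible (⟨algebraMap F E c, h⟩ : O))

omit [IsGalois F E] in
theorem norm_zpow' (x : E) (j : ℤ) : Algebra.norm F (x ^ j) = (Algebra.norm F x) ^ j := by
  cases j with
  | ofNat n => simp [map_pow]
  | negSucc n => simp [zpow_negSucc, Algebra.norm_inv, map_pow]

include hu

/-- (U2') `H¹(Gal(E/F), O^×) = 0`: every 1-cocycle with values in the units of `O` is the
coboundary of a unit of `O`. -/
theorem units_coboundary (f : (E ≃ₐ[F] E) → E)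
    (hf : ∀ g h : E ≃ₐ[F] E, f (g * h) = g (f h) * f g)
    (hfO : ∀ g, f g ≠ 0 ∧ f g ∈ O ∧ (f g)⁻¹ ∈ O) :
    ∃ y : E, y ≠ 0 ∧ y ∈ O ∧ y⁻¹ ∈ O ∧ ∀ g : E ≃ₐ[F] E, g y / y = f g := by
  obtain ⟨c, h, hc⟩ := hu
  let f' : (E ≃ₐ[F] E) → Eˣ := fun g => Units.mk0 (f g) (hfO g).1
  have hf' : groupCohomology.IsMulCocycle₁ f' := by
    intro g k
    apply Units.ext
    simp only [f', Units.val_mk0, Units.val_mul, AlgEquiv.smul_units_def, Units.coe_map,
      MonoidHom.coe_coe]
    exact hf g k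
  obtain ⟨β, hβ⟩ := groupCohomology.isMulCoboundary₁_of_isMulCocycle₁_of_aut_to_units f' hf'
  obtain ⟨j, v, hv0, hv, hv', e⟩ := exists_zpow_mul_unit O h hc β.ne_zero
  refine ⟨v, hv0, hv, hv', fun g => ?_⟩
  have := congrArg (fun t : Eˣ => (t : E)) (hβ g)
  simp only [f', Units.val_mk0, Units.val_div_eq_div_val, AlgEquiv.smul_units_def, Units.coe_map,
    MonoidHom.coe_coe] at this
  rw [← this, e, map_mul, map_zpow₀, AlgEquiv.commutes]
  have hπ0 : algebraMap F E c ≠ 0 := fun h0 => hc.ne_zero (Subtype.ext h0)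
  field_simp

include hO

/-- (U1) an unramified extension is cyclic, generated by a Frobenius: `φ x ≡ x ^ #κ_F`. -/
theorem exists_frobenius :
    ∃ φ : E ≃ₐ[F] E, (∀ σ : E ≃ₐ[F] E, σ ∈ Subgroup.zpowers φ) ∧
      ∀ x : E, x ∈ O → φ x - x ^ Nat.card (IsLocalRing.ResidueField (bot (F := F) O)) ∈
        O.nonunits := by
  obtain ⟨c, h, hc⟩ := hu
  exact (unram_core O hO h hc).1

theorem isCyclic_gal : IsCyclic (E ≃ₐ[F] E) := by
  obtain ⟨φ, hφ, -⟩ := exists_frobenius O hO hu
  exact ⟨⟨φ, hφ⟩⟩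

/-- the inertia group is trivial -/
theorem inertia_trivial (σ : E ≃ₐ[F] E) (hσ : ∀ x : E, x ∈ O → σ x - x ∈ O.nonunits) : σ = 1 := by
  obtain ⟨c, h, hc⟩ := hu
  exact (unram_core O hO h hc).2.1 σ hσ

/-- residue degree = degree -/
theorem card_residueField :
    Nat.card (IsLocalRing.ResidueField O) =
      Nat.card (IsLocalRing.ResidueField (bot (F := F) O)) ^ Module.finrank F E := by
  obtain ⟨c, h, hc⟩ := hu
  exact (unram_core O hO h hc).2.2.1

/-- (U2) the norm is surjective on units of an unramified extension. -/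
theorem norm_surjective_on_units (u : F) (hu1 : algebraMap F E u ∈ O)
    (hu2 : algebraMap F E u⁻¹ ∈ O) :
    ∃ v : E, v ∈ O ∧ v⁻¹ ∈ O ∧ Algebra.norm F v = u := by
  obtain ⟨c, h, hc⟩ := hu
  obtain ⟨w, hw, hw', hN⟩ := (unram_core O hO h hc).2.2.2 (algebraMap F E u) hu1
    (by rwa [← map_inv₀]) (fun σ => σ.commutes u)
  refine ⟨w, hw, hw', ?_⟩
  apply (algebraMap F E).injective
  rw [Algebra.norm_eq_prod_automorphisms, hN]

/-- (U3) for an unramified extension of degree `n`, `c ^ k * u` (`c` a uniformiser in `F`,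
`u` a unit) is a norm iff `n ∣ k`. -/
theorem mem_norm_range_iff_of_isUnram (c : F)
    (h : algebraMap F E c ∈ O) (hc : Irreducible (⟨algebraMap F E c, h⟩ : O))
    (k : ℤ) (u : F) (hu0 : u ≠ 0) (hu1 : algebraMap F E u ∈ O) (hu2 : algebraMap F E u⁻¹ ∈ O) :
    (∃ y : E, Algebra.norm F y = c ^ k * u) ↔ (Module.finrank F E : ℤ) ∣ k := by
  have hπ0 : algebraMap F E c ≠ 0 := fun h0 => hc.ne_zero (Subtype.ext h0)
  have hc0 : c ≠ 0 := fun h0 => hπ0 (by rw [h0, map_zero])
  constructor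
  · rintro ⟨y, hy⟩
    have hy0 : y ≠ 0 := by
      rintro rfl
      rw [Algebra.norm_zero] at hy
      exact (mul_ne_zero (zpow_ne_zero k hc0) hu0) hy.symm
    obtain ⟨j, v, hv0, hv, hv', e⟩ := exists_zpow_mul_unit O h hc hy0
    refine ⟨j, ?_⟩
    -- the norm of `v` is a unit
    have hNv : algebraMap F E (Algebra.norm F v) ∈ O := by
      rw [Algebra.norm_eq_prod_automorphisms]
      exact prod_mem fun σ _ => hO σ v hv
    have hNv' : (algebraMap F E (Algebra.norm F v))⁻¹ ∈ O := by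
      rw [Algebra.norm_eq_prod_automorphisms, ← Finset.prod_inv_distrib]
      refine prod_mem fun σ _ => ?_
      rw [← map_inv₀]
      exact hO σ v⁻¹ hv'
    have hNv0 : Algebra.norm F v ≠ 0 := Algebra.norm_ne_zero_iff.mpr hv0
    have hN : Algebra.norm F y = c ^ (Module.finrank F E * j) * Algebra.norm F v := by
      rw [e, map_mul, norm_zpow', Algebra.norm_algebraMap, ← zpow_natCast, ← zpow_mul]
    rw [hN] at hy
    -- compare
    have hd : c ^ (k - Module.finrank F E * j) = Algebra.norm F v / u := by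
      rw [zpow_sub₀ hc0, eq_div_iff hu0, div_mul_eq_mul_div, div_eq_iff (zpow_ne_zero _ hc0),
        ← hy, mul_comm]
    have h1 : (algebraMap F E c) ^ (k - Module.finrank F E * j) ∈ O := by
      rw [← map_zpow₀, hd, map_div₀, div_eq_mul_inv, ← map_inv₀]
      exact O.mul_mem _ _ hNv hu2
    have h2 : ((algebraMap F E c) ^ (k - Module.finrank F E * j))⁻¹ ∈ O := by
      rw [← map_zpow₀, hd, map_div₀, inv_div, div_eq_mul_inv]
      exact O.mul_mem _ _ hu1 hNv'
    have := zpow_eq_zero_of_unit O h hc h1 h2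
    omega
  · rintro ⟨j, rfl⟩
    obtain ⟨w, -, -, hw⟩ := norm_surjective_on_units O hO hu u hu1 hu2
    refine ⟨(algebraMap F E c) ^ j * w, ?_⟩
    rw [map_mul, norm_zpow', Algebra.norm_algebraMap, hw, ← zpow_natCast, ← zpow_mul]

end Fermat.Agent.GC.Local.Unram
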