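/-
GATE-C / C4 leaf (LM-U) step (U-b) (helper52): the units of an UNRAMIFIED local extension are
cohomologically trivial.

`E/F` finite Galois, `O` a Galois-stable valuation subring of `E` which is a complete DVR with
finite residue field, unramified (a uniformiser comes from `F`) — the binders of helper26's
`GC/Local/Unram/Main.lean`.  Then for every subgroup `D' ≤ Gal(E/F)` and every `n`,
`H^{n+1}(D', O^×) = 0`.

* `intUnitsSub O`     : `O^×` as a `ℤ`-submodule of `Additive Eˣ`;
* `intUnitsRep O hO`  : `O^×` as a `Gal(E/F)`-module (a subrepresentation of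
  `Rep.ofAlgebraAutOnUnits F E`);
* `isZero_groupCohomology_intUnitsRep`     : `H^{n+1}(Gal(E/F), O^×) = 0`;
* `isZero_groupCohomology_res_intUnitsRep` : `H^{n+1}(D', O^×) = 0` for every subgroup `D'`.
-/
import Mathlib
import Fermat.Agent.GC.Local.Unram.Main
import Fermat.Agent.GC.Tate.CyclicCard

set_option autoImplicit false
set_option linter.unusedSectionVars false

open CategoryTheory IsLocalRing

noncomputable section

namespace Fermat.Agent.GC.Local.Unram

section Defs

variable {F E : Type} [Field F] [Field E] [Algebra F E]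
  (O : ValuationSubring E)

/-- `O^×` as a `ℤ`-submodule of `Additive Eˣ`. -/
def intUnitsSub : Submodule ℤ (Additive Eˣ) :=
  AddSubgroup.toIntSubmodule (Subgroup.toAddSubgroup O.unitGroup)

theorem mem_intUnitsSub {x : Additive Eˣ} :
    x ∈ intUnitsSub O ↔ x.toMul ∈ O.unitGroup := Iff.rfl

theorem mem_unitGroup_iff_mem {x : Eˣ} :
    x ∈ O.unitGroup ↔ (x : E) ∈ O ∧ ((x⁻¹ : Eˣ) : E) ∈ O := by
  rw [ValuationSubring.mem_unitGroup_iff]
  constructor
  · intro h
    constructor
    · rw [← ValuationSubring.valuation_le_one_iff, h]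
    · rw [← ValuationSubring.valuation_le_one_iff, Units.val_inv_eq_inv_val, map_inv₀, h, inv_one]
  · rintro ⟨h1, h2⟩
    rw [← ValuationSubring.valuation_le_one_iff] at h1 h2
    rw [Units.val_inv_eq_inv_val, map_inv₀] at h2
    have h0 : O.valuation (x : E) ≠ 0 := by
      rw [ne_eq, map_eq_zero]; exact x.ne_zero
    have h3 : 1 ≤ O.valuation (x : E) := by
      have := (inv_le_one₀ (zero_lt_iff.2 h0)).1 h2
      exact this
    exact le_antisymm h1 h3

variable (hO : ∀ (σ : E ≃ₐ[F] E) (x : E), x ∈ O → σ x ∈ O)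

include hO in
theorem smul_mem_unitGroup (σ : E ≃ₐ[F] E) {x : Eˣ} (hx : x ∈ O.unitGroup) :
    Units.map (σ : E →* E) x ∈ O.unitGroup := by
  rw [mem_unitGroup_iff_mem] at hx ⊢
  refine ⟨hO σ _ hx.1, ?_⟩
  have : ((Units.map (σ : E →* E) x)⁻¹ : Eˣ) = Units.map (σ : E →* E) x⁻¹ := by
    rw [map_inv]
  rw [this]
  exact hO σ _ hx.2

include hO in
theorem intUnitsSub_le_comap (σ : E ≃ₐ[F] E) :
    intUnitsSub O ≤ (intUnitsSub O).comap ((Rep.ofAlgebraAutOnUnits F E).ρ σ) := by
  intro x hx
  exact smul_mem_unitGroup O hO σ hx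

/-- The action of `Gal(E/F)` on `O^×`. -/
def intUnitsRepn : Representation ℤ (E ≃ₐ[F] E) (intUnitsSub O) :=
  (Rep.ofAlgebraAutOnUnits F E).ρ.subrepresentation (intUnitsSub O) (intUnitsSub_le_comap O hO)

/-- `O^×` as a `Gal(E/F)`-module. -/
def intUnitsRep : Rep ℤ (E ≃ₐ[F] E) := Rep.of (intUnitsRepn O hO)

theorem unitsRep_ρ : (intUnitsRep O hO).ρ = intUnitsRepn O hO := rfl

/-- The underlying element of `E` of an element of `O^×`. -/
def intUnitsVal (x : intUnitsSub O) : E := (((x : Additive Eˣ).toMul : Eˣ) : E)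

theorem intUnitsVal_mem (x : intUnitsSub O) : intUnitsVal O x ∈ O :=
  ((mem_unitGroup_iff_mem O (x := Additive.toMul (x : Additive Eˣ))).1 x.2).1

theorem intUnitsVal_inv_mem (x : intUnitsSub O) : (intUnitsVal O x)⁻¹ ∈ O := by
  have h := ((mem_unitGroup_iff_mem O (x := Additive.toMul (x : Additive Eˣ))).1 x.2).2
  rw [Units.val_inv_eq_inv_val] at h
  exact h

theorem intUnitsVal_ne_zero (x : intUnitsSub O) : intUnitsVal O x ≠ 0 :=
  ((x : Additive Eˣ).toMul : Eˣ).ne_zero

theorem intUnitsVal_add (x y : intUnitsSub O) : intUnitsVal O (x + y) = intUnitsVal O x * intUnitsVal O y := rfl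

theorem intUnitsVal_neg (x : intUnitsSub O) : intUnitsVal O (-x) = (intUnitsVal O x)⁻¹ := by
  show ((((x : Additive Eˣ).toMul)⁻¹ : Eˣ) : E) = _
  rw [Units.val_inv_eq_inv_val]; rfl

theorem intUnitsVal_sub (x y : intUnitsSub O) : intUnitsVal O (x - y) = intUnitsVal O x / intUnitsVal O y := by
  rw [sub_eq_add_neg, intUnitsVal_add, intUnitsVal_neg, div_eq_mul_inv]

theorem intUnitsVal_zero : intUnitsVal O (0 : intUnitsSub O) = 1 := rfl

theorem intUnitsVal_injective : Function.Injective (intUnitsVal O) := by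
  intro x y h
  apply Subtype.ext
  apply Additive.toMul.injective
  exact Units.ext h

/-- Build an element of `O^×` from an element of `E`. -/
def intUnitsMk (y : E) (hy0 : y ≠ 0) (hy : y ∈ O) (hy' : y⁻¹ ∈ O) : intUnitsSub O :=
  ⟨Additive.ofMul (Units.mk0 y hy0), by
    show Units.mk0 y hy0 ∈ O.unitGroup
    rw [mem_unitGroup_iff_mem]
    exact ⟨hy, by rw [Units.val_inv_eq_inv_val]; exact hy'⟩⟩

@[simp] theorem intUnitsVal_unitsMk (y : E) (hy0 : y ≠ 0) (hy : y ∈ O) (hy' : y⁻¹ ∈ O) :
    intUnitsVal O (intUnitsMk O y hy0 hy hy') = y := rfl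

theorem intUnitsVal_ρ (σ : E ≃ₐ[F] E) (x : intUnitsSub O) :
    intUnitsVal O ((intUnitsRep O hO).ρ σ x) = σ (intUnitsVal O x) := rfl

theorem intUnitsVal_repn (σ : E ≃ₐ[F] E) (x : intUnitsSub O) :
    intUnitsVal O (intUnitsRepn O hO σ x) = σ (intUnitsVal O x) := rfl

end Defs

section Core

variable {F E : Type} [Field F] [Field E] [Algebra F E] [FiniteDimensional F E] [IsGalois F E]
  (O : ValuationSubring E) [IsDiscreteValuationRing O] [Finite (IsLocalRing.ResidueField O)]
  [IsAdicComplete (IsLocalRing.maximalIdeal O) O]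
  (hO : ∀ (σ : E ≃ₐ[F] E) (x : E), x ∈ O → σ x ∈ O)
  (hu : ∃ c : F, ∃ h : algebraMap F E c ∈ O, Irreducible (⟨algebraMap F E c, h⟩ : O))

include hu in
/-- `H¹(Gal(E/F), O^×) = 0` for `E/F` unramified. -/
theorem subsingleton_H1_intUnitsRep : Subsingleton (groupCohomology.H1 (intUnitsRep O hO)) := by
  suffices h : ∀ a : groupCohomology.H1 (intUnitsRep O hO), a = 0 from
    ⟨fun a b => by rw [h a, h b]⟩
  intro a
  refine groupCohomology.H1_induction_on a fun x => (groupCohomology.H1π_eq_zero_iff _).2 ?_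
  have hx := (groupCohomology.mem_cocycles₁_iff (A := intUnitsRep O hO) x).1 x.2
  let f : (E ≃ₐ[F] E) → E := fun g => intUnitsVal O (x g)
  have hf : ∀ g h : E ≃ₐ[F] E, f (g * h) = g (f h) * f g := by
    intro g h
    have := congrArg (intUnitsVal O) (hx g h)
    exact this
  have hfO : ∀ g, f g ≠ 0 ∧ f g ∈ O ∧ (f g)⁻¹ ∈ O := fun g =>
    ⟨intUnitsVal_ne_zero O _, intUnitsVal_mem O _, intUnitsVal_inv_mem O _⟩
  obtain ⟨y, hy0, hy, hy', hyf⟩ := units_coboundary O hu f hf hfO
  refine ⟨intUnitsMk O y hy0 hy hy', ?_⟩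
  funext g
  apply intUnitsVal_injective O
  refine (intUnitsVal_sub O ((intUnitsRep O hO).ρ g (intUnitsMk O y hy0 hy hy'))
    (intUnitsMk O y hy0 hy hy')).trans ?_
  rw [intUnitsVal_ρ, intUnitsVal_unitsMk, hyf]

theorem intUnitsVal_sum (s : Finset (E ≃ₐ[F] E)) (x : intUnitsSub O) :
    intUnitsVal O (∑ σ ∈ s, intUnitsRepn O hO σ x) = ∏ σ ∈ s, σ (intUnitsVal O x) := by
  classical
  induction s using Finset.induction_on with
  | empty => simp [intUnitsVal_zero]
  | insert a s ha ih =>
    rw [Finset.sum_insert ha, Finset.prod_insert ha, intUnitsVal_add, ih, intUnitsVal_repn]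

include hO hu in
/-- the norm is onto the invariants of `O^×`: `Ĥ⁰(Gal(E/F), O^×) = 0`. -/
theorem exists_norm_eq_of_fixed (x : intUnitsSub O)
    (hx : ∀ σ : E ≃ₐ[F] E, σ (intUnitsVal O x) = intUnitsVal O x) :
    ∃ y : intUnitsSub O, ∏ σ : E ≃ₐ[F] E, σ (intUnitsVal O y) = intUnitsVal O x := by
  obtain ⟨u, hu'⟩ := (IsGalois.mem_range_algebraMap_iff_fixed (F := F) (intUnitsVal O x)).2 hx
  have h1 : algebraMap F E u ∈ O := by rw [hu']; exact intUnitsVal_mem O x
  have h2 : algebraMap F E u⁻¹ ∈ O := by rw [map_inv₀, hu']; exact intUnitsVal_inv_mem O x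
  obtain ⟨v, hv, hv', hN⟩ := norm_surjective_on_units O hO hu u h1 h2
  have hv0 : v ≠ 0 := by
    rintro rfl
    rw [Algebra.norm_zero] at hN
    rw [← hN, map_zero] at hu'
    exact intUnitsVal_ne_zero O x hu'.symm
  refine ⟨intUnitsMk O v hv0 hv hv', ?_⟩
  rw [intUnitsVal_unitsMk, ← Algebra.norm_eq_prod_automorphisms, hN, hu']

include hO hu in
/-- `|H^{n+1}(Gal(E/F), O^×)| = 1` for `E/F` unramified. -/
theorem card_groupCohomology_intUnitsRep (n : ℕ) :
    Nat.card (groupCohomology (intUnitsRep O hO) (n + 1)) = 1 := by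
  obtain ⟨g, hg, -⟩ := exists_frobenius O hO hu
  have h1 : Nat.card (groupCohomology (intUnitsRep O hO) 1) = 1 := by
    have : Subsingleton (groupCohomology (intUnitsRep O hO) 1) := subsingleton_H1_intUnitsRep O hO hu
    exact Nat.card_unique
  have h2 : Nat.card (groupCohomology (intUnitsRep O hO) 2) = 1 := by
    rw [CycBridge.card_groupCohomology_even_of_group (intUnitsRep O hO) g hg 2 (by decide),
      AddSubgroup.relIndex_eq_one]
    intro x0 hx
    obtain ⟨x, rfl⟩ : ∃ x : intUnitsSub O, x = x0 := ⟨x0, rfl⟩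
    have hx' : intUnitsRepn O hO g x - x = 0 := hx
    have hgx : g (intUnitsVal O x) = intUnitsVal O x := by
      have := congrArg (intUnitsVal O) (sub_eq_zero.1 hx')
      rwa [intUnitsVal_repn] at this
    have hfix : ∀ σ : E ≃ₐ[F] E, σ (intUnitsVal O x) = intUnitsVal O x := by
      intro σ
      have hle : Subgroup.zpowers g ≤ MulAction.stabilizer (E ≃ₐ[F] E) (intUnitsVal O x) :=
        Subgroup.zpowers_le.2 (MulAction.mem_stabilizer_iff.2 hgx)
      exact MulAction.mem_stabilizer_iff.1 (hle (hg σ))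
    obtain ⟨y, hy⟩ := exists_norm_eq_of_fixed O hO hu x hfix
    have key : (intUnitsRepn O hO).norm y = ∑ σ, intUnitsRepn O hO σ y := by
      unfold Representation.norm
      rw [LinearMap.sum_apply]
    refine ⟨y, ?_⟩
    apply intUnitsVal_injective O
    exact ((congrArg (intUnitsVal O) key).trans (intUnitsVal_sum O hO Finset.univ y)).trans hy
  induction n using Nat.twoStepInduction with
  | zero => exact h1
  | one => exact h2
  | more n ih1 _ =>
    rw [show n + 2 + 1 = (n + 1) + 2 from rfl,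
      CycBridge.card_groupCohomology_add_two_of_group (intUnitsRep O hO) g hg (n + 1)]
    exact ih1

include hO hu in
/-- **Unramified units are cohomologically trivial** (full group):
`H^{n+1}(Gal(E/F), O^×) = 0`. -/
theorem isZero_groupCohomology_intUnitsRep (n : ℕ) :
    Limits.IsZero (groupCohomology (intUnitsRep O hO) (n + 1)) := by
  have h := card_groupCohomology_intUnitsRep O hO hu n
  have : Subsingleton (groupCohomology (intUnitsRep O hO) (n + 1)) :=
    (Nat.card_eq_one_iff_unique.1 h).1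
  exact ModuleCat.isZero_of_subsingleton _

end Core

section Subgroup

variable {F E : Type} [Field F] [Field E] [Algebra F E] [FiniteDimensional F E] [IsGalois F E]
  (O : ValuationSubring E) [IsDiscreteValuationRing O] [Finite (IsLocalRing.ResidueField O)]
  [IsAdicComplete (IsLocalRing.maximalIdeal O) O]
  (hO : ∀ (σ : E ≃ₐ[F] E) (x : E), x ∈ O → σ x ∈ O)
  (hu : ∃ c : F, ∃ h : algebraMap F E c ∈ O, Irreducible (⟨algebraMap F E c, h⟩ : O))
  (D' : Subgroup (E ≃ₐ[F] E))

include hO in
theorem galStable_fixedField (σ : E ≃ₐ[IntermediateField.fixedField D'] E) (x : E) (hx : x ∈ O) :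
    σ x ∈ O :=
  hO (σ.restrictScalars F) x hx

include hu in
theorem unram_fixedField :
    ∃ c : IntermediateField.fixedField D',
      ∃ h : algebraMap (IntermediateField.fixedField D') E c ∈ O,
        Irreducible (⟨algebraMap (IntermediateField.fixedField D') E c, h⟩ : O) := by
  obtain ⟨c, h, hc⟩ := hu
  exact ⟨algebraMap F (IntermediateField.fixedField D') c, h, hc⟩

/-- `Hⁿ(D', O^×) ≅ Hⁿ(Gal(E/E^{D'}), O^×)`. -/
def intUnitsFixedFieldIso (n : ℕ) :
    groupCohomology (Rep.res D'.subtype (intUnitsRep O hO)) n ≅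
      groupCohomology (intUnitsRep (F := IntermediateField.fixedField D') O
        (galStable_fixedField O hO D')) n :=
  groupCohomology.mapIso (IntermediateField.subgroupEquivAlgEquiv D')
    (LinearEquiv.refl ℤ (intUnitsSub O)) (fun g => by
      ext x
      rfl) n

include hu in
/-- **Unramified units are cohomologically trivial**: `H^{n+1}(D', O^×) = 0` for every subgroup
`D' ≤ Gal(E/F)`, `E/F` unramified. -/
theorem isZero_groupCohomology_res_intUnitsRep (n : ℕ) :
    Limits.IsZero (groupCohomology (Rep.res D'.subtype (intUnitsRep O hO)) (n + 1)) :=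
  (isZero_groupCohomology_intUnitsRep (F := IntermediateField.fixedField D') O
    (galStable_fixedField O hO D') (unram_fixedField O hu D') n).of_iso
    (intUnitsFixedFieldIso O hO D' (n + 1))

end Subgroup

end Fermat.Agent.GC.Local.Unram
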