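/-
GATE-C / C4 leaf (LM-U) bridge, local part (helper52): for a finite Galois extension `E/ℚ_q`,
TRIVIAL INERTIA implies `ramIdx q E = 1` (helper3's absolute ramification index).

Proof: trivial inertia makes `Gal(E/ℚ_q) → Aut(κ_E/𝔽_q)` injective, so `e·f = n ≤ f`.
-/
import Mathlib
import Fermat.Agent.GC.Local.Ramification

set_option autoImplicit false
set_option linter.unusedSectionVars false

open scoped Padic
open IsLocalRing

noncomputable section

namespace Fermat.Agent.GC.Local.InertiaRam

open Fermat.Agent.GC.Local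

variable (q : ℕ) [Fact q.Prime] (E : Type) [Field E] [Algebra ℚ_[q] E]
  [FiniteDimensional ℚ_[q] E]

theorem map_mem_nonunits (σ : E ≃ₐ[ℚ_[q]] E) {x : E} (hx : x ∈ (padicVS q E).nonunits) :
    σ x ∈ (padicVS q E).nonunits := by
  rw [mem_nonunits_padicVS_iff] at hx ⊢
  rwa [← spectralNorm_eq_of_equiv σ x]

/-- `σ` restricted to the valuation ring. -/
def restrictO (σ : E ≃ₐ[ℚ_[q]] E) : padicVS q E →+* padicVS q E :=
  ((σ : E →+* E).comp (padicVS q E).subtype).codRestrict (padicVS q E)
    (fun x => padicVS_galStable q E ℚ_[q] σ x x.2)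

@[simp] theorem coe_restrictO (σ : E ≃ₐ[ℚ_[q]] E) (x : padicVS q E) :
    ((restrictO q E σ x : padicVS q E) : E) = σ (x : E) := rfl

theorem restrictO_maximalIdeal (σ : E ≃ₐ[ℚ_[q]] E) :
    maximalIdeal (padicVS q E) ≤ (maximalIdeal (padicVS q E)).comap (restrictO q E σ) := by
  intro x hx
  rw [Ideal.mem_comap, ← ValuationSubring.coe_mem_nonunits_iff, coe_restrictO]
  rw [← ValuationSubring.coe_mem_nonunits_iff] at hx
  exact map_mem_nonunits q E σ hx

/-- The ring endomorphism of the residue field induced by `σ`. -/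
def resMap (σ : E ≃ₐ[ℚ_[q]] E) :
    ResidueField (padicVS q E) →+* ResidueField (padicVS q E) :=
  Ideal.quotientMap (maximalIdeal (padicVS q E)) (restrictO q E σ) (restrictO_maximalIdeal q E σ)

theorem resMap_residue (σ : E ≃ₐ[ℚ_[q]] E) (x : padicVS q E) :
    resMap q E σ (residue (padicVS q E) x) = residue (padicVS q E) (restrictO q E σ x) := rfl

instance fintypeResidueField : Fintype (ResidueField (padicVS q E)) :=
  haveI := padicVS_finite_residueField q E
  Fintype.ofFinite _

instance charPResidueField : CharP (ResidueField (padicVS q E)) q := by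
  have h := card_residueField_eq q E
  rw [Nat.card_eq_fintype_card] at h
  exact charP_of_card_eq_prime_pow h

instance algebraResidueField : Algebra (ZMod q) (ResidueField (padicVS q E)) :=
  ZMod.algebra _ q

/-- The `𝔽_q`-algebra endomorphism of the residue field induced by `σ`. -/
def resAlgHom (σ : E ≃ₐ[ℚ_[q]] E) :
    ResidueField (padicVS q E) →ₐ[ZMod q] ResidueField (padicVS q E) :=
  { resMap q E σ with
    commutes' := fun r => by
      rw [← ZMod.natCast_zmod_val r]
      simp only [map_natCast, RingHom.toMonoidHom_eq_coe, OneHom.toFun_eq_coe,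
        MonoidHom.toOneHom_coe, MonoidHom.coe_coe] }

theorem resAlgHom_residue (σ : E ≃ₐ[ℚ_[q]] E) (x : padicVS q E) :
    resAlgHom q E σ (residue (padicVS q E) x) = residue (padicVS q E) (restrictO q E σ x) := rfl

variable [IsGalois ℚ_[q] E]

/-- If the inertia group is trivial then `σ ↦ σ mod 𝔪` is injective. -/
theorem resAlgHom_injective
    (h : ∀ σ : E ≃ₐ[ℚ_[q]] E,
      (∀ x : E, x ∈ padicVS q E → σ x - x ∈ (padicVS q E).nonunits) → σ = 1) :
    Function.Injective (resAlgHom q E) := by
  intro σ σ' hσ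
  have key : σ'⁻¹ * σ = 1 := by
    apply h
    intro x hx
    have h1 := congrArg (fun f : ResidueField (padicVS q E) →ₐ[ZMod q] ResidueField (padicVS q E) =>
      f (residue (padicVS q E) ⟨x, hx⟩)) hσ
    simp only [resAlgHom_residue] at h1
    rw [← sub_eq_zero, ← map_sub, residue_eq_zero_iff, ← ValuationSubring.coe_mem_nonunits_iff] at h1
    have h2 : σ x - σ' x ∈ (padicVS q E).nonunits := h1
    have h3 := map_mem_nonunits q E σ'⁻¹ h2
    have h4 : σ'⁻¹ (σ x - σ' x) = (σ'⁻¹ * σ) x - x := by
      rw [map_sub, AlgEquiv.mul_apply]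
      congr 1
      exact (AlgEquiv.symm_apply_apply σ' x)
    rwa [h4] at h3
  calc σ = σ' * (σ'⁻¹ * σ) := by group
    _ = σ' := by rw [key, mul_one]

/-- **Trivial inertia ⇒ unramified**: `ramIdx q E = 1`. -/
theorem ramIdx_eq_one_of_inertia_trivial
    (h : ∀ σ : E ≃ₐ[ℚ_[q]] E,
      (∀ x : E, x ∈ padicVS q E → σ x - x ∈ (padicVS q E).nonunits) → σ = 1) :
    ramIdx q E = 1 := by
  have hfin : Module.Finite (ZMod q) (ResidueField (padicVS q E)) := Module.Finite.of_finite
  have h1 : Fintype.card (E ≃ₐ[ℚ_[q]] E) ≤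
      Fintype.card (ResidueField (padicVS q E) →ₐ[ZMod q] ResidueField (padicVS q E)) :=
    Fintype.card_le_of_injective _ (resAlgHom_injective q E h)
  have h2 : Fintype.card (ResidueField (padicVS q E) →ₐ[ZMod q] ResidueField (padicVS q E)) ≤
      Module.finrank (ZMod q) (ResidueField (padicVS q E)) := AlgHom.card_le
  have h3 : Module.finrank (ZMod q) (ResidueField (padicVS q E)) = resDeg q E := by
    have ha := Module.natCard_eq_pow_finrank (K := ZMod q) (V := ResidueField (padicVS q E))
    rw [Nat.card_zmod, card_residueField_eq q E] at ha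
    exact (Nat.pow_right_injective (Fact.out : q.Prime).two_le ha).symm
  have h4 : Fintype.card (E ≃ₐ[ℚ_[q]] E) = Module.finrank ℚ_[q] E := by
    rw [← Nat.card_eq_fintype_card]
    exact IsGalois.card_aut_eq_finrank ℚ_[q] E
  have h5 := ramIdx_mul_resDeg q E
  have hle : ramIdx q E * resDeg q E ≤ resDeg q E := by
    rw [h5, ← h4, ← h3]
    exact h1.trans h2
  have hpos : 0 < resDeg q E := by
    rcases Nat.eq_zero_or_pos (resDeg q E) with h0 | h0
    · rw [h0, mul_zero] at h5
      exact absurd h5.symm (Module.finrank_pos).ne'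
    · exact h0
  have he := ramIdx_pos q E
  have : ramIdx q E ≤ 1 := by
    by_contra hc
    push Not at hc
    have : 2 * resDeg q E ≤ ramIdx q E * resDeg q E := Nat.mul_le_mul_right _ hc
    omega
  omega

end Fermat.Agent.GC.Local.InertiaRam
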